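import Fermat.Agent.RT.AtP.NewPoint
import Fermat.Agent.RT.OldNew
import Fermat.Agent.RT.DiscPush

/-!
# An eigen class with vanishing traces at `p` has a strictly ordinary representation

`u` is a parabolic homomorphism of `Γ₀(M p)`, `p ∤ M`, with values in a finite extension `O` of
`ℤ_p`, an eigen class of the good Hecke operators whose traces to level `M` along both sides vanish.
An ordinary representation with the Frobenius polynomials of `u` is then strictly ordinary at `p`.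
-/

set_option autoImplicit false
set_option linter.style.haveILetI false

noncomputable section

open CongruenceSubgroup ModularCurve AlgebraicCurve Polynomial
open scoped Matrix MatrixGroups

namespace FLTA.RT.AtP

open FLTA.GaloisReps (GalQ TateData tateData tateRho matrixRep matrixRep_apply heckeMat
  coe_tateTorsionEquiv tateTorsionEquiv commute_tateRho map_intCast_map latMat_mulVec_heckeHom heckeQuot_T_comp)
open FLTA.Gamma0 (homRank homPar0 homPar0Equiv)
open FLTA.Periods (heckeHom)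
open FLTA.Kummer (kummerTorsionEquiv)
open FLTA.BadRed.Ordinary (modVec modVec_mulVec)

variable {M p : ℕ} [NeZero M] [NeZero p] [Fact p.Prime]

/-- `modVec` is additive. -/
theorem modVec_add {r : ℕ} (k : ℕ) (v w : Fin r → ℤ_[p]) :
    modVec k (v + w) = modVec k v + modVec k w :=
  _root_.funext fun _ => map_add _ _ _

theorem pushed_add (D : TateData (M * p) p) {v w : Fin D.r → ℤ_[p]} (hv : Pushed D v)
    (hw : Pushed D w) : Pushed D (v + w) := fun k => by
  rw [modVec_add, map_add, Submodule.coe_add, map_add, map_add, (hv k).1, (hv k).2, (hw k).1,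
    (hw k).2]
  exact ⟨add_zero _, add_zero _⟩

theorem pushed_zero (D : TateData (M * p) p) : Pushed D (0 : Fin D.r → ℤ_[p]) := fun k => by
  rw [show modVec k (0 : Fin D.r → ℤ_[p]) = 0 from _root_.funext fun _ => map_zero _, map_zero,
    Submodule.coe_zero, map_zero, map_zero]
  exact ⟨rfl, rfl⟩

theorem pushed_mulVec (D : TateData (M * p) p) (σ : GalQ) {v : Fin D.r → ℤ_[p]} (hv : Pushed D v) :
    Pushed D (D.rho σ *ᵥ v) := fun k => by
  rw [modVec_mulVec, D.torsionEquiv_galois, Carayol.pushAlpha_galois, Carayol.pushBeta_galois,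
    (hv k).1, (hv k).2]
  exact ⟨smul_zero (A := JZero M) σ, smul_zero (A := JZero M) σ⟩

variable {O : Type} [CommRing O]

/-- The coordinates of a homomorphism with vanishing traces are pushed. -/
theorem pushed_of_traces (hpM : Nat.Coprime p M) {u : Additive (Gamma0 (M * p)) →+ O}
    (hu : u ∈ homPar0 ℤ (Gamma0 (M * p)) O)
    (htr : ∀ (b : Bool) (γ : Gamma0 M), ∑ i, u (Additive.ofMul
      (Disc.transCocyc hpM dvd_rfl (Disc.isTrans_sideTrans (q := p) hpM b) γ i)) = 0)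
    (f : O →+ ℤ_[p]) :
    Pushed (tateData (M * p) p) fun i => f (homPar0Equiv (M * p) ℤ O ⟨u, hu⟩ i) := by
  intro k
  haveI : NeZero (p ^ k) := ⟨pow_ne_zero _ (NeZero.ne p)⟩
  set x := torsPoint (M * p) k fun i => f (homPar0Equiv (M * p) ℤ O ⟨u, hu⟩ i) with hx
  let g : O →+ ZMod (p ^ k) := (PadicInt.toZModPow (p := p) k).toAddMonoidHom.comp f
  have hχ : kummerTorsionEquiv (M * p) (p ^ k) x =
      FLTA.Gamma0.homPar0Map (Gamma0 (M * p)) g ⟨u, hu⟩ := by
    refine (homPar0Equiv (M * p) ℤ (ZMod (p ^ k))).injective ?_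
    exact torsCoord_torsPoint (M * p) k _
  have hval : (kummerTorsionEquiv (M * p) (p ^ k) x).1 = g.comp u := by
    rw [hχ]
    exact FLTA.Gamma0.homPar0Map_coe _ _ _
  have hsum : ∀ (b : Bool) (γ : Gamma0 M), ∑ i, (kummerTorsionEquiv (M * p) (p ^ k) x).1
      (Additive.ofMul (Disc.transCocyc hpM dvd_rfl (Disc.isTrans_sideTrans (q := p) hpM b) γ i))
        = 0 := fun b γ => by
    rw [hval]
    exact (map_sum g _ _).symm.trans ((congrArg g (htr b γ)).trans (map_zero g))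
  have h := @Disc.push_eq_zero_of_traces p M M (p ^ k) _ _ _ _ hpM dvd_rfl hpM x
  have h12 := h hsum
  have hcoe : ((tateTorsionEquiv (M * p) p k
      (modVec k fun i => f (homPar0Equiv (M * p) ℤ O ⟨u, hu⟩ i)) : JZero (M * p))) =
      (x : JZero (M * p)) := coe_tateTorsionEquiv _ _ _ _
  show Carayol.pushAlpha M p (tateTorsionEquiv (M * p) p k _ : JZero (M * p)) = 0 ∧
    Carayol.pushBeta M p (tateTorsionEquiv (M * p) p k _ : JZero (M * p)) = 0
  exact ⟨(congrArg (fun y => Carayol.pushAlpha M p y) hcoe).trans h12.1,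
    (congrArg (fun y => Carayol.pushBeta M p y) hcoe).trans h12.2⟩

variable [IsDomain O] [IsDiscreteValuationRing O] [CharZero O] [Algebra ℤ_[p] O]
  [Module.Finite ℤ_[p] O]

omit [IsDiscreteValuationRing O] [NeZero p] in
theorem free_padic : Module.Free ℤ_[p] O := by
  have hinj : Function.Injective (algebraMap ℤ_[p] O) :=
    RingHom.injective_iff_ker_eq_bot _ |>.mpr (by
      rw [eq_bot_iff]
      intro x hx
      by_contra hx0
      rw [Ideal.mem_bot] at hx0
      rw [PadicInt.unitCoeff_spec hx0, RingHom.mem_ker, map_mul, map_pow, map_natCast] at hx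
      exact pow_ne_zero _ (Nat.cast_ne_zero.mpr (Fact.out (p := p.Prime)).ne_zero)
        (((PadicInt.unitCoeff hx0).isUnit.map (algebraMap ℤ_[p] O)).mul_right_eq_zero.mp hx))
  have : FaithfulSMul ℤ_[p] O := (faithfulSMul_iff_algebraMap_injective _ _).mpr hinj
  have : Module.IsTorsionFree ℤ_[p] O := inferInstance
  exact Module.free_of_finite_type_torsion_free'

/-- **An eigen class with vanishing traces at `p` gives strict ordinarity.** -/
theorem isStrictOrdinaryAt_of_traces (hpM : Nat.Coprime p M) (hp2 : p ≠ 2) (S : Finset ℕ)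
    (a : ℕ → O) (ρ : GaloisRepAdic O)
    (hcp : ∀ ℓ : ℕ, ℓ.Prime → ℓ ∉ S → ∀ A : ValuationSubring (AlgebraicClosure ℚ),
      A.LiesOverPrime ℓ → ∀ σ : GalQ, A.IsFrobeniusAt σ ℓ →
        LinearMap.charpoly (ρ.ρ σ) = X ^ 2 - C (a ℓ) * X + C (ℓ : O))
    (hirr : ρ.residual.IsAbsolutelyIrreducible) (hc : ρ.DetIsCyclotomic p)
    (hord : ρ.IsOrdinaryAt p) (u : Additive (Gamma0 (M * p)) →+ O)
    (hu : u ∈ homPar0 ℤ (Gamma0 (M * p)) O) (hu0 : u ≠ 0)
    (hT : ∀ ℓ : ℕ, ℓ.Prime → ℓ ∉ S → ¬ ℓ ∣ M * p → heckeHom ℤ (M * p) ℓ u = a ℓ • u)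
    (htr : ∀ (b : Bool) (γ : Gamma0 M), ∑ i, u (Additive.ofMul
      (Disc.transCocyc hpM dvd_rfl (Disc.isTrans_sideTrans (q := p) hpM b) γ i)) = 0) :
    ρ.IsStrictOrdinaryAt p := by
  classical
  haveI : Module.Free ℤ_[p] O := free_padic
  let D := tateData (M * p) p
  let S' : Finset ℕ := insert p (S ∪ (M * p).primeFactors)
  have hS'N : ∀ ℓ : ℕ, ℓ.Prime → ℓ ∣ M * p → ℓ ∈ S' := fun ℓ hℓ h => by
    simp [S', Nat.mem_primeFactors, hℓ, h, NeZero.ne (M * p)]
  let Tm : ∀ ℓ : ℕ, ℓ.Prime → ¬ ℓ ∣ M * p →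
      Matrix (Fin (homRank (M * p))) (Fin (homRank (M * p))) O := fun ℓ hℓ hℓN =>
    (heckeMat (M * p) (CuspForm.heckeAlgebra.T hℓ hℓN (Set.notMem_empty ℓ))).map
      (Int.cast : ℤ → O)
  let W : Submodule O (Fin (homRank (M * p)) → O) :=
    { carrier := {w | (∀ f : O →ₗ[ℤ_[p]] ℤ_[p], Pushed D fun i => f (w i)) ∧
        ∀ (ℓ : ℕ) (hℓ : ℓ.Prime) (hℓN : ¬ ℓ ∣ M * p), ℓ ∉ S' → Tm ℓ hℓ hℓN *ᵥ w = a ℓ • w}
      zero_mem' := ⟨fun f => by
          have h : (fun i => f ((0 : Fin (homRank (M * p)) → O) i)) = 0 := _root_.funext fun i => map_zero f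
          exact (congrArg (Pushed D) h).mpr (pushed_zero D), fun ℓ _ _ _ =>
            (Matrix.mulVec_zero _).trans (smul_zero _).symm⟩
      add_mem' := fun {v w} hv hw => ⟨fun f => by
          have h : ((fun i => f ((v + w) i)) : Fin (homRank (M * p)) → ℤ_[p]) = (fun i => f (v i)) + fun i => f (w i) :=
            _root_.funext fun i => map_add f _ _
          exact (congrArg (Pushed D) h).mpr (pushed_add D (hv.1 f) (hw.1 f)),
        fun ℓ hℓ hℓN hℓS => by
          exact ((Matrix.mulVec_add _ _ _).trans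
            (congrArg₂ (· + ·) (hv.2 ℓ hℓ hℓN hℓS) (hw.2 ℓ hℓ hℓN hℓS))).trans
              (smul_add _ _ _).symm⟩
      smul_mem' := fun r w hw => ⟨fun f => hw.1 (f.comp (LinearMap.mulLeft ℤ_[p] r)),
        fun ℓ hℓ hℓN hℓS => by
          exact ((Matrix.mulVec_smul _ _ _).trans
            (congrArg (r • ·) (hw.2 ℓ hℓ hℓN hℓS))).trans (smul_comm r (a ℓ) w)⟩ }
  have hstab : ∀ g, ∀ w ∈ W, matrixRep O D.rho g w ∈ W := by
    intro σ w hw
    refine ⟨fun f => ?_, fun ℓ hℓ hℓN hℓS => ?_⟩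
    · have h : (fun i => f (matrixRep O D.rho σ w i)) = D.rho σ *ᵥ fun i => f (w i) :=
        comp_tateRhoR_mulVec f (M * p) σ w
      rw [h]
      exact pushed_mulVec D σ (hw.1 f)
    · show Tm ℓ hℓ hℓN *ᵥ (tateRhoR p O (M * p) σ *ᵥ w) = a ℓ • (tateRhoR p O (M * p) σ *ᵥ w)
      have hcm := ((commute_tateRho (M * p) p σ
        (CuspForm.heckeAlgebra.T hℓ hℓN (Set.notMem_empty ℓ))).map
          (algebraMap ℤ_[p] O).mapMatrix).symm.eq
      simp only [RingHom.mapMatrix_apply, map_intCast_map, ← tateRhoR_apply] at hcm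
      rw [Matrix.mulVec_mulVec, hcm, ← Matrix.mulVec_mulVec]
      exact (congrArg (tateRhoR p O (M * p) σ *ᵥ ·) (hw.2 ℓ hℓ hℓN hℓS)).trans
        (Matrix.mulVec_smul _ _ _)
  set v := homPar0Equiv (M * p) ℤ O ⟨u, hu⟩ with hv
  have hvW : v ∈ W := by
    refine ⟨fun f => pushed_of_traces hpM hu htr f.toAddMonoidHom, fun ℓ hℓ hℓN hℓS => ?_⟩
    have hℓS₀ : ℓ ∉ S := fun h => hℓS (by simp [S', h])
    refine (latMat_mulVec_heckeHom (heckeQuot_T_comp hℓ hℓN) ⟨u, hu⟩
      ⟨_, FLTA.Periods.heckeHom_mem_homPar0 ℤ ℓ hu⟩ rfl).trans ?_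
    funext i
    show _ = a ℓ • v i
    rw [hv, FLTA.Gamma0.homPar0Equiv_apply, FLTA.Gamma0.homPar0Equiv_apply]
    exact DFunLike.congr_fun (hT ℓ hℓ hℓS₀ hℓN) _
  have hW0 : W ≠ ⊥ := fun h => hu0 (congrArg Subtype.val
    ((homPar0Equiv (M * p) ℤ O).map_eq_zero_iff.mp
      (hv.symm.trans ((Submodule.eq_bot_iff _).mp h v hvW))))
  have hquad : ∀ g, ∀ w ∈ W, tateRhoR p O (M * p) g *ᵥ (tateRhoR p O (M * p) g *ᵥ w) -
      ρ.trace g • (tateRhoR p O (M * p) g *ᵥ w) + LinearMap.det (ρ.ρ g) • w = 0 := fun σ w hw =>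
    quadratic_on_eigen hc.1 S' a ρ (Finset.mem_insert_self _ _) hS'N
      (fun ℓ hℓ hℓS => hcp ℓ hℓ fun h => hℓS (by simp [S', h])) w
      (fun ℓ hℓ hℓN hℓS τ => (hstab τ w hw).2 ℓ hℓ hℓN hℓS) σ
  exact isStrictOrdinaryAt_of_pushed D ρ W hW0 hstab hquad (fun w hw f => hw.1 f) hirr
    ((Fact.out : p.Prime).coprime_iff_not_dvd.mp hpM) hp2 hc.1 hc hord

end FLTA.RT.AtP

end
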