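import Fermat.Agent.BadRed.Ordinary.GoodLevel
import Fermat.Agent.BadRed.Ordinary.Wild
import Fermat.Agent.BadRed.Ordinary.Field
import Fermat.Agent.BadRed.Ordinary.Instance
import Fermat.Agent.BadRed.ModularFibre
import Fermat.Agent.BadRed.ModularSym
import Fermat.Agent.BadRed.Galois
import Fermat.Agent.GaloisReps.TateConstructCommute

/-!
# The `p`-torsion of `J₀(M)` at `p`, `p ∤ M`

`redKer M p` is the subgroup of classes whose pullback to level `M p` is toric.  The Hecke
operator at `p` agrees with Frobenius modulo it, inertia moves torsion into it, and it has no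
quotient with trivial inertia.
-/

set_option autoImplicit false
set_option synthInstance.maxHeartbeats 400000
set_option maxHeartbeats 1000000

noncomputable section

open AlgebraicCurve ModularCurve

namespace FLTA.RT.AtP

local notation "Qb" => AlgebraicClosure ℚ
local notation "Γ" => AlgebraicClosure ℚ ≃ₐ[ℚ] AlgebraicClosure ℚ

section Generic

variable {K F F' : Type*} [Field K] [Field F] [Field F'] [Algebra K F] [Algebra K F']
  [HasPrincipalDivisors K F']

/-- Pushing forward a pullback multiplies by the degree. -/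
theorem pushforwardAlong_pullbackAlong (φ : F →ₐ[K] F') (hint : φ.toRingHom.IsIntegral)
    (hfin : FiniteAlong K φ) (hsep : SeparableAlong K φ) (D : Divisor K F) :
    Divisor.pushforwardAlong φ hint (Divisor.pullbackAlong φ hint D) =
      (finrankAlong K φ : ℤ) • D := by
  induction D using Finsupp.induction with
  | zero => simp
  | single_add v n D _ _ ih =>
    rw [map_add, map_add, ih, smul_add]
    congr 1
    have hpull : Divisor.pullbackAlong φ hint (Finsupp.single v n) =
        ∑ w ∈ Place.fiberAlong φ hint v, Finsupp.single w (n * w.ramificationIndexAlong φ) := by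
      letI := algebraAlong φ
      haveI := isScalarTower_along φ
      haveI := isIntegral_along φ hint
      exact Divisor.pullback_single v n
    have hres : ∀ w ∈ Place.fiberAlong φ hint v, w.restrictAlong φ hint = v := fun w hw => by
      letI := algebraAlong φ
      haveI := isScalarTower_along φ
      haveI := isIntegral_along φ hint
      exact Place.mem_fiber.mp hw
    rw [hpull, map_sum, Finset.sum_congr rfl fun w hw => by
      rw [Divisor.pushforwardAlong_single, hres w hw, mul_assoc], ← Finsupp.single_finsetSum,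
      ← Finset.mul_sum,
      FLTA.Curves.sum_ramificationIndexAlong_mul_inertiaDegAlong φ hint hfin hsep v,
      Finsupp.smul_single, smul_eq_mul, mul_comm]

/-- The pullback of classes is equivariant for intertwined automorphisms. -/
theorem pullPic_smul (φ : F →ₐ[K] F') (hint : φ.toRingHom.IsIntegral)
    (hFI : FundamentalIdentityAlong K φ hint) {g : SemilinearAut K F} {g' : SemilinearAut K F'}
    (h : ∀ x : F, g' • φ x = φ (g • x)) (P : Pic0 K F) :
    BadRed.BadFibre.pullPic φ hint hFI (g • P) =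
      g' • BadRed.BadFibre.pullPic φ hint hFI P := by
  obtain ⟨D, rfl⟩ := Pic0.mk_surjective P
  rw [SemilinearAut.pic0_smul_mk, BadRed.BadFibre.pullPic_mk, BadRed.BadFibre.pullPic_mk,
    SemilinearAut.pic0_smul_mk]
  exact congrArg Pic0.mk (Subtype.ext (GaloisReps.pullbackAlong_smul φ hint h (D : Divisor K F)))

/-- The pushforward of classes after the pullback is the degree. -/
theorem pushPic_pullPic [CharZero K] [Curves.IsSepFunctionField K F]
    [Curves.IsSepFunctionField K F'] (φ : F →ₐ[K] F') (hint : φ.toRingHom.IsIntegral)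
    (hFI : FundamentalIdentityAlong K φ hint) (hfin : FiniteAlong K φ)
    (hsep : SeparableAlong K φ) (P : Pic0 K F) :
    Carayol.pushPic φ (BadRed.BadFibre.pullPic φ hint hFI P) = finrankAlong K φ • P := by
  obtain ⟨D, rfl⟩ := Pic0.mk_surjective P
  rw [BadRed.BadFibre.pullPic_mk, Carayol.pushPic_mk]
  show _ = QuotientAddGroup.mk' _ (finrankAlong K φ • D)
  refine congrArg Pic0.mk (Subtype.ext ?_)
  show Divisor.pushforwardAlong φ _ (Divisor.pullbackAlong φ hint (D : Divisor K F)) = _
  rw [pushforwardAlong_pullbackAlong φ hint hfin hsep, AddSubgroupClass.coe_nsmul,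
    natCast_zsmul]

end Generic

variable (M p : ℕ) [NeZero M] [NeZero p] [hp : Fact p.Prime] (hpM : ¬ p ∣ M)

/-- The pullback of classes along `τ ↦ τ`. -/
def pullAlpha : JZero M →+ JZero (M * p) :=
  BadRed.BadFibre.pullPic (heckeAlphaBar Qb M p) (Curves.isIntegral_of_algHom _)
    (Curves.fundamentalIdentityAlong _ _ (Curves.finiteAlong _)
      (Curves.separableAlong_of_charZero _))

omit hp in
theorem pullAlpha_galois (σ : Γ) (x : JZero M) : pullAlpha M p (σ • x) = σ • pullAlpha M p x := by
  rw [galois_smul_pic0_def, galois_smul_pic0_def]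
  exact pullPic_smul _ _ _ (GaloisReps.heckeAlphaBar_galois M p σ) x

include hpM in
/-- The pushforward after the pullback is `p + 1`. -/
theorem pushAlpha_pullAlpha (x : JZero M) :
    Carayol.pushAlpha M p (pullAlpha M p x) = (p + 1) • x := by
  rw [← FLTA.Congruence.finrankAlong_heckeAlphaBar M p hp.out hpM]
  exact pushPic_pullPic (heckeAlphaBar Qb M p) (Curves.isIntegral_of_algHom _)
    (Curves.fundamentalIdentityAlong _ _ (Curves.finiteAlong _)
      (Curves.separableAlong_of_charZero _))
    (Curves.finiteAlong _) (Curves.separableAlong_of_charZero _) x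

include hpM in
/-- The pullback is injective on `p`-torsion. -/
theorem eq_zero_of_pullAlpha {x : JZero M} (hx : p • x = 0) (h : pullAlpha M p x = 0) : x = 0 := by
  have h1 := pushAlpha_pullAlpha M p hpM x
  rwa [h, map_zero, add_smul, hx, zero_add, one_smul, eq_comm] at h1

/-- The heart of `T ≡ Frob`: the Hecke operator at `p` is the correspondence of the fibre. -/
theorem heckeOperatorBar_eq_correspondence (x : JZero M) :
    heckeOperatorBar M ⟨p, hp.out⟩ x =
      Pic0.correspondence (heckeBetaBar Qb M p) (heckeAlphaBar Qb M p)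
        (Curves.isIntegral_of_algHom _) (Curves.isIntegral_of_algHom _)
        (Curves.fundamentalIdentityAlong _ _ (Curves.finiteAlong _)
          (Curves.separableAlong_of_charZero _))
        (Curves.finiteAlong _)
        (Curves.normFormulaAlong _ _ (Curves.separableAlong_of_charZero _)) x := by
  show heckeOperatorAlong Qb M p x = _
  exact DFunLike.congr_fun (heckeOperatorAlong_eq (L := Qb) (N := M) (ℓ := p) _ _ _ _ _) x

variable {A : ValuationSubring (AlgebraicClosure ℚ)} (hA : A.LiesOverPrime p)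

section Fibre

variable [CharP (IsLocalRing.ResidueField A) p] [PerfectRing (IsLocalRing.ResidueField A) p]
  [IsAlgClosed (IsLocalRing.ResidueField A)]

/-- The classes whose pullback is toric. -/
def redKer : AddSubgroup (JZero M) :=
  (BadRed.Ordinary.toricSubgroup (BadRed.badFibre M p A hA hpM) p).comap (pullAlpha M p)

theorem mem_redKer {x : JZero M} :
    x ∈ redKer M p hpM hA ↔ (BadRed.badFibre M p A hA hpM).IsToric p (pullAlpha M p x) := Iff.rfl

/-- Inertia moves `p`-torsion into `redKer`. -/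
theorem smul_sub_mem_redKer {σ : Γ} (hσ : σ ∈ A.inertiaSubgroupIn ℚ) {x : JZero M}
    (hx : p • x = 0) : σ • x - x ∈ redKer M p hpM hA := by
  obtain ⟨s, hs, hsI⟩ := BadRed.exists_inertiaSym M p A hA hpM hσ
  have h := (BadRed.badFibre M p A hA hpM).isToric_inertia_smul_sub s hsI (n := p)
    (x := pullAlpha M p x) (by rw [← map_nsmul, hx, map_zero])
  rw [mem_redKer, map_sub, pullAlpha_galois, galois_smul_pic0_def, ← hs]
  exact h

/-- **Eichler-Shimura at `p`**: `T_p = Frob` modulo `redKer`. -/
theorem heckeOperatorBar_sub_frob_mem_redKer {σ : Γ} (hσ : A.IsFrobeniusAt σ p) {x : JZero M}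
    (hx : p • x = 0) :
    heckeOperatorBar M ⟨p, hp.out⟩ x - σ • x ∈ redKer M p hpM hA := by
  obtain ⟨s, hs, hsF⟩ := BadRed.exists_frobSym M p A hA hpM hσ
  have hwa : (BadRed.badFibre M p A hA hpM).w.comp (BadRed.badFibre M p A hA hpM).a =
      heckeBetaBar Qb M p := BadRed.swapBar_alpha M p hpM
  have h := (BadRed.badFibre M p A hA hpM).isToric_pullPic_correspondence_sub
    (Curves.isIntegral_of_algHom _) (Curves.isIntegral_of_algHom _)
    (Curves.fundamentalIdentityAlong _ _ (Curves.finiteAlong _)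
      (Curves.separableAlong_of_charZero _))
    (Curves.fundamentalIdentityAlong _ _ (Curves.finiteAlong _)
      (Curves.separableAlong_of_charZero _))
    (Curves.normFormulaAlong _ _ (Curves.separableAlong_of_charZero _)) s hsF hx
  rw [mem_redKer, map_sub, pullAlpha_galois, galois_smul_pic0_def, ← hs,
    heckeOperatorBar_eq_correspondence]
  simp only [hwa] at h
  exact h

/-- Inertia stabilises `redKer`. -/
theorem smul_mem_redKer {σ : Γ} (hσ : σ ∈ A.inertiaSubgroupIn ℚ) {x : JZero M}
    (hx : x ∈ redKer M p hpM hA) : σ • x ∈ redKer M p hpM hA := by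
  obtain ⟨s, hs, hsI⟩ := BadRed.exists_inertiaSym M p A hA hpM hσ
  rw [mem_redKer] at hx ⊢
  rw [pullAlpha_galois, galois_smul_pic0_def, ← hs]
  obtain ⟨D, f, hf, hmk, hord, hred⟩ := hx
  refine ⟨SemilinearAut.degZeroSMulHom s.σ D, s.σ • f, (smul_ne_zero_iff_ne _).mpr hf,
    by rw [← SemilinearAut.pic0_smul_mk, hmk],
    ((BadRed.BadFibre.KummerFn.mk hf hord).conj s.σ).ord_eq, fun i => ?_⟩
  obtain ⟨c, η, hc, hη, h⟩ := hred i
  refine ⟨SemilinearAut.baseAut s.σ c, η, (map_ne_zero _).mpr hc, hη, ?_⟩
  have h2 := h.sym s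
  rwa [BadRed.BadFibre.semilinear_smul_smul,
    (BadRed.badFibre M p A hA hpM).inertia_smul_fk s hsI] at h2

/-- **No quotient of `redKer` has trivial inertia.** -/
theorem eq_zero_of_invariant (hp2 : p ≠ 2)
    (X : AddSubgroup (JZero M)) [Finite X] (hX : X ≤ redKer M p hpM hA)
    (htors : ∀ x ∈ X, p • x = 0)
    (hstab : ∀ σ ∈ A.inertiaSubgroupIn ℚ, ∀ x ∈ X, σ • x ∈ X)
    (φ : X →+ ZMod p)
    (hinv : ∀ (σ : Γ) (hσ : σ ∈ A.inertiaSubgroupIn ℚ) (x : X),
      φ ⟨σ • (x : JZero M), hstab σ hσ x x.2⟩ = φ x) : φ = 0 := by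
  obtain ⟨S, m₀, hS⟩ := (BadRed.badFibre M p A hA hpM).exists_isGluing
  have hne : S.Nonempty := by
    have h1 := hS.card_eq
    have h2 := BadRed.two_mul_genusX0_le M p hpM
    rw [← Finset.card_pos]
    omega
  obtain ⟨I, hI'⟩ := BadRed.Ordinary.exists_inertiaData M p hpM hA
  have hI : ∀ (σ : A.inertiaSubgroupIn ℚ) (x : JZero (M * p)), (I.sy σ).σ • x = (σ : Γ) • x :=
    fun σ x => by rw [hI', galois_smul_pic0_def]
  by_contra hφ
  have hsurj : Function.Surjective φ := by
    obtain ⟨x, hx⟩ : ∃ x, φ x ≠ 0 := by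
      by_contra hall
      push Not at hall
      exact hφ (AddMonoidHom.ext hall)
    exact fun c => ⟨(c / φ x).val • x, by
      rw [map_nsmul, nsmul_eq_mul, ZMod.natCast_zmod_val, div_mul_cancel₀ _ hx]⟩
  let Y : AddSubgroup (JZero (M * p)) := X.map (pullAlpha M p)
  haveI : Finite Y := Finite.of_surjective
    (fun x : X => (⟨pullAlpha M p x, x, x.2, rfl⟩ : Y))
    (by rintro ⟨_, x, hx, rfl⟩; exact ⟨⟨x, hx⟩, rfl⟩)
  have hinj : ∀ x y : X, pullAlpha M p x = pullAlpha M p y → x = y := fun x y h =>
    Subtype.ext (sub_eq_zero.mp (eq_zero_of_pullAlpha M p hpM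
      (htors _ (sub_mem x.2 y.2)) (by rw [map_sub, h, sub_self])))
  have hlift : ∀ y : Y, ∃ x : X, pullAlpha M p x = (y : JZero (M * p)) := fun y => by
    obtain ⟨x, hx, e⟩ := y.2
    exact ⟨⟨x, hx⟩, e⟩
  choose lift hlift using hlift
  let ψ : Y →+ ZMod p := AddMonoidHom.mk' (fun y => φ (lift y)) fun a b => by
    rw [← map_add]
    refine congrArg φ (hinj _ _ ?_)
    rw [AddSubgroup.coe_add, map_add, hlift, hlift, hlift, AddSubgroup.coe_add]
  have hYstab : ∀ (σ : A.inertiaSubgroupIn ℚ), ∀ y ∈ Y, (I.sy σ).σ • y ∈ Y := by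
    rintro σ _ ⟨x, hx, rfl⟩
    exact ⟨(σ : Γ) • x, hstab σ σ.2 x hx, by rw [pullAlpha_galois, hI]⟩
  refine BadRed.Ordinary.no_invariant_quotient hp2 hS hne I
    (BadRed.Ordinary.inertiaField_bar hp.out hA) Y ?_ hYstab ψ ?_ ?_
  · rintro _ ⟨x, hx, rfl⟩
    exact hX hx
  · intro c
    obtain ⟨x, hx⟩ := hsurj c
    refine ⟨⟨pullAlpha M p x, x, x.2, rfl⟩, ?_⟩
    show φ (lift _) = c
    rw [hinj (lift _) x (hlift _), hx]
  · intro σ y
    show φ (lift _) = φ (lift y)
    rw [hinj (lift _) ⟨(σ : Γ) • (lift y : JZero M), hstab σ σ.2 _ (lift y).2⟩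
      ((hlift _).trans ((hI σ (y : JZero (M * p))).trans
        (((congrArg ((σ : Γ) • ·) (hlift y)).symm.trans
          (pullAlpha_galois M p (σ : Γ) (lift y : JZero M)).symm)))), hinv (σ : Γ) σ.2]

end Fibre

end FLTA.RT.AtP

end
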