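import Fermat.Agent.RepTheory.Basic
import Fermat.Agent.RepTheory.AbsIrr

/-!
# Modules on which a representation's quadratic relations hold

`act` satisfies on the stable submodule `W` the relations `g² - tr g · g + det g = 0` of the plane
`ρ`.  If the matrices of `ρ` span, an element with eigenvalues `1`, `d` cannot act by `d` on all of
`W`; the polarised relation then computes the eigenvalues on the `1`-part.
-/

set_option autoImplicit false

namespace FLTA.RT.AtP

open FLTA.RepTheory (Spans matHom matHom_apply)

variable {G : Type*} [Group G] {R : Type*} [CommRing R] {V : Type*} [AddCommGroup V] [Module R V]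
  {M : Type*} [AddCommGroup M] [Module R M]
  (ρ : G →* Module.End R V) (act : G →* Module.End R M) (W : Submodule R M)
  (hstab : ∀ g, ∀ w ∈ W, act g w ∈ W)
  (hquad : ∀ g, ∀ w ∈ W, act g (act g w) - LinearMap.trace R V (ρ g) • act g w +
    LinearMap.det (ρ g) • w = 0)

include hstab hquad

/-- The inverse through the relation. -/
theorem det_smul_act_inv (g : G) {w : M} (hw : w ∈ W) :
    LinearMap.det (ρ g) • act g⁻¹ w = LinearMap.trace R V (ρ g) • w - act g w := by
  have h := hquad g (act g⁻¹ w) (hstab _ _ hw)
  have e : act g (act g⁻¹ w) = w := by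
    rw [← Module.End.mul_apply, ← map_mul, mul_inv_cancel, map_one, Module.End.one_apply]
  rw [e] at h
  rw [← sub_eq_zero, ← h]
  abel

/-- The polarised relation. -/
theorem act_polar (g h : G) {w : M} (hw : w ∈ W) :
    act g (act h w) + act h (act g w) - LinearMap.trace R V (ρ h) • act g w -
        LinearMap.trace R V (ρ g) • act h w +
      (LinearMap.trace R V (ρ g) * LinearMap.trace R V (ρ h)) • w =
        LinearMap.trace R V (ρ (g * h)) • w := by
  have h1 := det_smul_act_inv ρ act W hstab hquad (g * h) hw
  have h2 : LinearMap.det (ρ (g * h)) • act (g * h)⁻¹ w =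
      (LinearMap.trace R V (ρ g) * LinearMap.trace R V (ρ h)) • w -
        LinearMap.trace R V (ρ g) • act h w - LinearMap.trace R V (ρ h) • act g w +
          act h (act g w) := by
    rw [mul_inv_rev, map_mul act, Module.End.mul_apply, map_mul ρ, map_mul, mul_comm, mul_smul,
      ← map_smul (act h⁻¹), det_smul_act_inv ρ act W hstab hquad g hw, map_sub, map_smul,
      smul_sub, smul_comm, det_smul_act_inv ρ act W hstab hquad h hw,
      det_smul_act_inv ρ act W hstab hquad h (hstab g w hw), smul_sub, mul_smul]
    abel
  rw [h1, map_mul act, Module.End.mul_apply] at h2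
  linear_combination (norm := module) -h2

/-- An element `τ` with trace `1 + det τ`, `det τ - 1` a unit, does not act by `det τ` on all of
`W`. -/
theorem exists_act_ne_det_smul [IsDomain R] [Module.IsTorsionFree R M]
    (b : Module.Basis (Fin 2) R V) (hspan : Spans ρ) {w₀ : M} (hw₀ : w₀ ∈ W) (hne : w₀ ≠ 0)
    {τ : G} (htr : LinearMap.trace R V (ρ τ) = 1 + LinearMap.det (ρ τ))
    (hu : IsUnit (LinearMap.det (ρ τ) - 1)) :
    ∃ w ∈ W, act τ w ≠ LinearMap.det (ρ τ) • w := by
  by_contra hall
  simp only [not_exists, not_and, not_not] at hall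
  set d := LinearMap.det (ρ τ) with hd
  set t := fun g : G => LinearMap.trace R V (ρ g) with ht
  obtain ⟨v, hv⟩ := hu.exists_left_inv
  have hinj : ∀ a c : R, a • w₀ = c • w₀ → a = c := fun a c h => by
    rw [← sub_eq_zero, ← sub_smul, smul_eq_zero] at h
    exact sub_eq_zero.mp (h.resolve_right hne)
  -- every element is a scalar at `w₀`
  let e : G → R := fun g => v * (t (τ * g) - t g)
  have hscal : ∀ g, act g w₀ = e g • w₀ := by
    intro g
    have h := act_polar ρ act W hstab hquad τ g hw₀
    rw [hall _ (hstab g _ hw₀), hall _ hw₀, map_smul, htr] at h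
    have h' : (d - 1) • act g w₀ = (t (τ * g) - t g) • w₀ := by
      simp only [ht]
      linear_combination (norm := module) h
    calc act g w₀ = (v * (d - 1)) • act g w₀ := by rw [hv, one_smul]
      _ = v • ((t (τ * g) - t g) • w₀) := by rw [mul_smul, h']
      _ = e g • w₀ := smul_smul _ _ _
  have hmul : ∀ g h, e (g * h) = e g * e h := fun g h => hinj _ _ (by
    rw [← hscal, map_mul, Module.End.mul_apply, hscal, map_smul, hscal, smul_smul, mul_comm])
  have hadd : ∀ g h, t (g * h) = e g * e h + (t g - e g) * (t h - e h) := fun g h => hinj _ _ (by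
    have hp := act_polar ρ act W hstab hquad g h hw₀
    rw [hscal, hscal, map_smul, map_smul, hscal, hscal] at hp
    simp only [ht]
    linear_combination (norm := module) -hp)
  have hf : ∀ g h, t (g * h) - e (g * h) = (t g - e g) * (t h - e h) := fun g h => by
    rw [hadd, hmul]; ring
  have hsym : ∀ k g h, t (k * (g * h)) = t (k * (h * g)) := fun k g h => by
    rw [hadd, hadd k (h * g), hf, hf h g, hmul, hmul h g]; ring
  -- hence the matrices commute
  have hspan' : Submodule.span R (Set.range (matHom b ρ)) = ⊤ :=
    (FLTA.RepTheory.spans_iff_matHom b ρ).mp hspan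
  have htm : ∀ g, (matHom b ρ g).trace = t g := fun g =>
    (LinearMap.trace_eq_matrix_trace R b (ρ g)).symm
  have hcomm : ∀ g h, matHom b ρ g * matHom b ρ h = matHom b ρ h * matHom b ρ g := by
    intro g h
    rw [← sub_eq_zero]
    set C := matHom b ρ g * matHom b ρ h - matHom b ρ h * matHom b ρ g with hC
    have hall' : ∀ X, (X * C).trace = 0 := by
      intro X
      have hX : X ∈ Submodule.span R (Set.range (matHom b ρ)) := by rw [hspan']; trivial
      induction hX using Submodule.span_induction with
      | mem Y hY =>
        obtain ⟨k, rfl⟩ := hY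
        rw [hC, mul_sub, Matrix.trace_sub, ← map_mul, ← map_mul, ← map_mul, ← map_mul, htm, htm,
          hsym, sub_self]
      | zero => rw [zero_mul, Matrix.trace_zero]
      | add X Y _ _ hX hY => rw [add_mul, Matrix.trace_add, hX, hY, add_zero]
      | smul c X _ hX => rw [Matrix.smul_mul, Matrix.trace_smul, hX, smul_zero]
    ext i j
    have h1 := hall' (Matrix.single j i 1)
    simpa [Matrix.trace_single_mul] using h1
  have hX : ∀ X Y : Matrix (Fin 2) (Fin 2) R, X * Y = Y * X := by
    intro X Y
    have hXm : X ∈ Submodule.span R (Set.range (matHom b ρ)) := by rw [hspan']; trivial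
    induction hXm using Submodule.span_induction with
    | mem X hXr =>
      obtain ⟨g, rfl⟩ := hXr
      have hYm : Y ∈ Submodule.span R (Set.range (matHom b ρ)) := by rw [hspan']; trivial
      induction hYm using Submodule.span_induction with
      | mem Y hYr =>
        obtain ⟨h, rfl⟩ := hYr
        exact hcomm g h
      | zero => simp
      | add Y Z _ _ hY hZ => rw [mul_add, add_mul, hY, hZ]
      | smul c Y _ hY => rw [Matrix.mul_smul, Matrix.smul_mul, hY]
    | zero => simp
    | add X Z _ _ hX hZ => rw [add_mul, mul_add, hX, hZ]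
    | smul c X _ hX => rw [Matrix.mul_smul, Matrix.smul_mul, hX]
  have h01 := congrFun (congrFun (hX (Matrix.single 0 1 1) (Matrix.single 1 0 1)) 0) 0
  simp [Matrix.mul_apply, Matrix.single_apply] at h01

end FLTA.RT.AtP
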