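import Fermat.Agent.BadRed.Ordinary.Residual
import Fermat.Agent.BadRed.Ordinary.Instance
import Fermat.Agent.BadRed.Galois
import Fermat.Agent.RT.AtP.Quadratic
import Fermat.Agent.RepTheory.Carayol
import Fermat.Agent.GaloisReps.Attach
import Fermat.Agent.LevelLowering.ToricCyclo
import Fermat.Agent.Galois.PlacesFinite
import Fermat.Agent.Galois.Cyclotomic
import Fermat.Agent.Mazur.Constituents
import Fermat.Prelude.Def_GaloisRep_StrictOrdinary

/-!
# Points killed by both pushforwards at `p ∥ N` are strictly ordinary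

On a class `x` of `J₀(N p)[p ^ k]` killed by both pushforwards, `φ² x - x` is toric and inertia
acts cyclotomically on toric classes with trivial norms, so `(τ - a) ^ k (φ² - 1) x = 0` for
`a = cycloExp p τ`.  If a nonzero system of such vectors satisfies the quadratic relations of an
ordinary irreducible representation, the eigenvalue of `φ` on the quotient squares to `1`.
-/

set_option autoImplicit false
set_option synthInstance.maxHeartbeats 400000
set_option maxHeartbeats 1000000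
set_option linter.style.haveILetI false
set_option linter.unusedSectionVars false

noncomputable section

open AlgebraicCurve ModularCurve
open scoped Matrix

namespace FLTA.RT.AtP

open FLTA.BadRed.Ordinary (modVec actO actO_apply functional_actO modVec_mulVec modVec_sub
  toricSubgroup mem_toricSubgroup)
open ExtCitation (cycloExp)
open FLTA.GaloisReps (matrixRep matrixRep_apply)

local notation "Qb" => AlgebraicClosure ℚ
local notation "Γ" => AlgebraicClosure ℚ ≃ₐ[ℚ] AlgebraicClosure ℚ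

variable {N p : ℕ} [NeZero N] [NeZero p] [hp : Fact p.Prime]

/-- `y ↦ τ y - a y`, for `a` the mod `p` cyclotomic exponent of `τ`. -/
def cycloDefect (τ : Γ) (y : JZero (N * p)) : JZero (N * p) := τ • y - cycloExp p τ • y

theorem galois_nsmul {M : ℕ} [NeZero M] (σ : Γ) (n : ℕ) (y : JZero M) :
    σ • (n • y) = n • σ • y :=
  map_nsmul (DistribMulAction.toAddMonoidHom (JZero M) σ) n y

section Classes

variable (hpN : ¬ p ∣ N) {A : ValuationSubring Qb} (hA : A.LiesOverPrime p)

section Fibre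

variable [CharP (IsLocalRing.ResidueField A) p] [PerfectRing (IsLocalRing.ResidueField A) p]
  [IsAlgClosed (IsLocalRing.ResidueField A)]

/-- Classes killed by both pushforwards have trivial norms. -/
theorem normsTrivial_of_push {n : ℕ} {x : JZero (N * p)} (hx : n • x = 0)
    (hα : Carayol.pushAlpha N p x = 0) (hβ : Carayol.pushBeta N p x = 0) :
    (BadRed.badFibre N p A hA hpN).NormsTrivial n x := by
  obtain ⟨D, rfl⟩ := Pic0.mk_surjective x
  rw [Carayol.pushAlpha, Carayol.pushPic_mk_eq_zero_iff] at hα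
  rw [Carayol.pushBeta, Carayol.pushPic_mk_eq_zero_iff] at hβ
  exact (BadRed.badFibre N p A hA hpN).normsTrivial_of_pushforward (Curves.isIntegral_of_algHom _)
      (Curves.isIntegral_of_algHom _) (Curves.finiteAlong _)
      (Curves.normFormulaAlong _ _ (Curves.separableAlong_of_charZero _))
      (Curves.normFormulaAlong _ _ (Curves.separableAlong_of_charZero _)) hx hα
      (BadRed.pushforwardAlong_mem_principal_congr (BadRed.swapBar_alpha N p hpN) _ _ hβ)

/-- `φ² x - x` is toric. -/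
theorem isToric_frob_sq_sub {σ : Γ} (hσ : A.IsFrobeniusAt σ p) {n : ℕ} {x : JZero (N * p)}
    (hx : n • x = 0) (hα : Carayol.pushAlpha N p x = 0) (hβ : Carayol.pushBeta N p x = 0) :
    (BadRed.badFibre N p A hA hpN).IsToric n (σ • σ • x - x) := by
  obtain ⟨s, hs, hsF⟩ := BadRed.exists_frobSym N p A hA hpN hσ
  have h := (BadRed.badFibre N p A hA hpN).isToric_frob_sq_smul_sub s hsF
    (normsTrivial_of_push hpN hA hx hα hβ)
  rw [hs] at h
  simpa only [galois_smul_pic0_def] using h

/-- A power of `τ - a` kills the toric classes killed by both pushforwards. -/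
theorem cycloDefect_iterate_eq_zero (hp2 : p ≠ 2) {τ : Γ} (hτ : τ ∈ A.inertiaSubgroupIn ℚ)
    (k : ℕ) : ∀ (j : ℕ), j ≤ k → ∀ y : JZero (N * p),
      (BadRed.badFibre N p A hA hpN).IsToric (p ^ k) y → p ^ j • y = 0 →
      Carayol.pushAlpha N p y = 0 → Carayol.pushBeta N p y = 0 →
      (cycloDefect τ)^[j] y = 0 := by
  obtain ⟨S, m₀, hS⟩ := (BadRed.badFibre N p A hA hpN).exists_isGluing
  have hne : S.Nonempty := by
    have h1 := hS.card_eq
    have h2 := BadRed.two_mul_genusX0_le N p hpN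
    rw [← Finset.card_pos]
    omega
  obtain ⟨I, hI'⟩ := BadRed.Ordinary.exists_inertiaData N p hpN hA
  have hI : ∀ (γ : A.inertiaSubgroupIn ℚ) (x : JZero (N * p)), (I.sy γ).σ • x = (γ : Γ) • x :=
    fun γ x => by rw [hI', galois_smul_pic0_def]
  intro j
  induction j with
  | zero =>
    intro _ y _ hy _ _
    rw [pow_zero, one_smul] at hy
    exact hy
  | succ j ih =>
    intro hj y hy hpy hα hβ
    obtain ⟨k', rfl⟩ : ∃ k', k = k' + 1 := ⟨k - 1, by omega⟩
    have hky : p ^ (k' + 1) • y = 0 := by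
      rw [← Nat.sub_add_cancel hj, pow_add, mul_smul, hpy, smul_zero]
    have h1 : p • (p ^ j • y) = 0 := by rw [← mul_smul, ← pow_succ', hpy]
    have h2 : (BadRed.badFibre N p A hA hpN).IsToric p (p ^ j • y) :=
      BadRed.Ordinary.isToric_of_pow k' h1
        (mem_toricSubgroup.mp (nsmul_mem (mem_toricSubgroup.mpr hy) _))
    have h3 : τ • (p ^ j • y) = cycloExp p τ • (p ^ j • y) := by
      have h := FLTA.LevelLowering.Removal.toric_inertia_cyclo I hA hp2 hS hne h1 h2
        (normsTrivial_of_push hpN hA h1 (by rw [map_nsmul, hα, smul_zero])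
          (by rw [map_nsmul, hβ, smul_zero])) ⟨τ, hτ⟩
      rwa [hI] at h
    rw [Function.iterate_succ_apply]
    refine ih (Nat.le_of_succ_le hj) _ ?_ ?_ ?_ ?_
    · have h4 := (BadRed.badFibre N p A hA hpN).isToric_inertia_smul_sub (I.sy ⟨τ, hτ⟩)
        (I.inertia _) hky
      rw [hI] at h4
      have e : cycloDefect τ y = (τ • y - y) + (y - cycloExp p τ • y) := by
        rw [cycloDefect, sub_add_sub_cancel]
      rw [e]
      exact mem_toricSubgroup.mp (add_mem (mem_toricSubgroup.mpr h4)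
        (sub_mem (mem_toricSubgroup.mpr hy) (nsmul_mem (mem_toricSubgroup.mpr hy) _)))
    · rw [cycloDefect, nsmul_sub, ← galois_nsmul τ (p ^ j) y, h3, ← mul_smul, ← mul_smul, mul_comm (p ^ j),
        sub_self]
    · rw [cycloDefect, map_sub, map_nsmul, Carayol.pushAlpha_galois, hα, smul_zero, sub_zero]
      exact smul_zero (A := JZero N) τ
    · rw [cycloDefect, map_sub, map_nsmul, Carayol.pushBeta_galois, hβ, smul_zero, sub_zero]
      exact smul_zero (A := JZero N) τ

end Fibre

include hpN hA in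
/-- **The relation on classes.**  `(τ - a) ^ k` kills `φ² x - x`. -/
theorem cycloDefect_iterate_frob_sq (hp2 : p ≠ 2) {σ τ : Γ} (hσ : A.IsFrobeniusAt σ p)
    (hτ : τ ∈ A.inertiaSubgroupIn ℚ) {k : ℕ} {x : JZero (N * p)} (hx : p ^ k • x = 0)
    (hα : Carayol.pushAlpha N p x = 0) (hβ : Carayol.pushBeta N p x = 0) :
    (cycloDefect τ)^[k] (σ • σ • x - x) = 0 := by
  haveI := FLTA.Galois.charP_residueField hp.out hA
  haveI := FLTA.Galois.isAlgClosed_residueField A
  haveI : ExpChar (IsLocalRing.ResidueField A) p := ExpChar.prime hp.out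
  haveI : PerfectRing (IsLocalRing.ResidueField A) p := PerfectField.toPerfectRing p
  refine cycloDefect_iterate_eq_zero hpN hA hp2 hτ k k le_rfl _
    (isToric_frob_sq_sub hpN hA hσ hx hα hβ) ?_ ?_ ?_
  · rw [nsmul_sub, ← galois_nsmul, ← galois_nsmul, hx, sub_zero]
    exact (congrArg (σ • ·) (smul_zero (A := JZero (N * p)) σ)).trans
      (smul_zero (A := JZero (N * p)) σ)
  · rw [map_sub, Carayol.pushAlpha_galois, Carayol.pushAlpha_galois, hα, sub_zero]
    exact (congrArg (σ • ·) (smul_zero (A := JZero N) σ)).trans (smul_zero (A := JZero N) σ)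
  · rw [map_sub, Carayol.pushBeta_galois, Carayol.pushBeta_galois, hβ, sub_zero]
    exact (congrArg (σ • ·) (smul_zero (A := JZero N) σ)).trans (smul_zero (A := JZero N) σ)

end Classes

/-- A Tate vector whose reductions are killed by both pushforwards. -/
def Pushed (D : FLTA.GaloisReps.TateData (N * p) p) (v : Fin D.r → ℤ_[p]) : Prop :=
  ∀ k : ℕ, Carayol.pushAlpha N p (D.torsionEquiv k (modVec k v) : JZero (N * p)) = 0 ∧
    Carayol.pushBeta N p (D.torsionEquiv k (modVec k v) : JZero (N * p)) = 0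

/-- **The relation on Tate vectors.** -/
theorem dvd_mulVec_of_pushed (hpN : ¬ p ∣ N) {A : ValuationSubring Qb} (hA : A.LiesOverPrime p)
    (hp2 : p ≠ 2) (D : FLTA.GaloisReps.TateData (N * p) p) {σ τ : Γ} (hσ : A.IsFrobeniusAt σ p)
    (hτ : τ ∈ A.inertiaSubgroupIn ℚ) {v : Fin D.r → ℤ_[p]} (hv : Pushed D v) (k : ℕ)
    (i : Fin D.r) :
    (p : ℤ_[p]) ^ k ∣
      (((D.rho τ - (cycloExp p τ : Matrix (Fin D.r) (Fin D.r) ℤ_[p])) ^ k *
        (D.rho σ * D.rho σ - 1)) *ᵥ v) i := by
  let cl : (Fin D.r → ZMod (p ^ k)) →+ JZero (N * p) :=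
    AddMonoidHom.mk' (fun v => (D.torsionEquiv k v : JZero (N * p))) fun v w => by
      rw [map_add]; rfl
  have hgal : ∀ (g : Γ) (w : Fin D.r → ℤ_[p]),
      cl (modVec k (D.rho g *ᵥ w)) = g • cl (modVec k w) := fun g w => by
    rw [modVec_mulVec]
    exact D.torsionEquiv_galois k g _
  have hnat : ∀ (a : ℕ) (w : Fin D.r → ℤ_[p]), cl (modVec k ((a : Matrix (Fin D.r) (Fin D.r)
      ℤ_[p]) *ᵥ w)) = a • cl (modVec k w) := fun a w => by
    rw [← map_nsmul]
    refine congrArg cl (funext fun j => ?_)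
    simp only [modVec, Matrix.natCast_mulVec, Pi.smul_apply, smul_eq_mul, map_mul, map_natCast,
      nsmul_eq_mul]
  have hsub : ∀ w w' : Fin D.r → ℤ_[p], cl (modVec k (w - w')) =
      cl (modVec k w) - cl (modVec k w') := fun w w' => by rw [modVec_sub, map_sub]
  have hiter : ∀ (j : ℕ) (w : Fin D.r → ℤ_[p]),
      cl (modVec k ((D.rho τ - (cycloExp p τ : Matrix (Fin D.r) (Fin D.r) ℤ_[p])) ^ j *ᵥ w)) =
        (cycloDefect τ)^[j] (cl (modVec k w)) := by
    intro j
    induction j with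
    | zero => intro w; rw [pow_zero, Matrix.one_mulVec]; rfl
    | succ j ih =>
      intro w
      rw [pow_succ', ← Matrix.mulVec_mulVec, Matrix.sub_mulVec, hsub, hgal, hnat, ih,
        Function.iterate_succ_apply']
      rfl
  have hx : p ^ k • cl (modVec k v) = 0 := by
    have h := (Submodule.mem_torsionBy_iff _ _).mp (D.torsionEquiv k (modVec k v)).2
    rw [← natCast_zsmul, Nat.cast_pow]
    exact h
  have h0 : cl (modVec k (((D.rho τ - (cycloExp p τ : Matrix (Fin D.r) (Fin D.r) ℤ_[p])) ^ k *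
      (D.rho σ * D.rho σ - 1)) *ᵥ v)) = 0 := by
    rw [← Matrix.mulVec_mulVec, hiter, Matrix.sub_mulVec, Matrix.one_mulVec,
      ← Matrix.mulVec_mulVec, hsub, hgal, hgal]
    exact cycloDefect_iterate_frob_sq hpN hA hp2 hσ hτ hx (hv k).1 (hv k).2
  have h1 : modVec k (((D.rho τ - (cycloExp p τ : Matrix (Fin D.r) (Fin D.r) ℤ_[p])) ^ k *
      (D.rho σ * D.rho σ - 1)) *ᵥ v) = 0 :=
    (D.torsionEquiv k).injective (Subtype.ext (h0.trans (by rw [map_zero]; rfl)))
  have h2 := congrFun h1 i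
  rwa [modVec, Pi.zero_apply, ← RingHom.mem_ker, PadicInt.ker_toZModPow,
    Ideal.mem_span_singleton] at h2

section Eigen

variable {O : Type} [CommRing O] [IsDomain O] [IsDiscreteValuationRing O]
  [Algebra ℤ_[p] O] [Module.Finite ℤ_[p] O] [Module.Free ℤ_[p] O]

omit [IsDomain O] [IsDiscreteValuationRing O] in
theorem exists_eq_pow_smul {r : ℕ} {k : ℕ} {X : Fin r → O}
    (h : ∀ (ℓ : O →ₗ[ℤ_[p]] ℤ_[p]) (i : Fin r), (p : ℤ_[p]) ^ k ∣ ℓ (X i)) :
    ∃ y : Fin r → O, X = (p : O) ^ k • y := by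
  let b := Module.Free.chooseBasis ℤ_[p] O
  have hc : ∀ i j, ∃ c : ℤ_[p], b.repr (X i) j = (p : ℤ_[p]) ^ k * c := fun i j => h (b.coord j) i
  choose c hc using hc
  refine ⟨fun i => ∑ j, c i j • b j, funext fun i => ?_⟩
  rw [Pi.smul_apply, smul_eq_mul, Finset.mul_sum]
  conv_lhs => rw [← b.sum_repr (X i)]
  refine Finset.sum_congr rfl fun j _ => ?_
  rw [hc, mul_smul, Algebra.smul_def ((p : ℤ_[p]) ^ k), map_pow, map_natCast]

omit [Algebra ℤ_[p] O] [Module.Finite ℤ_[p] O] [Module.Free ℤ_[p] O] in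
theorem eq_zero_of_forall_mem_pow {x : O} (h : ∀ k, x ∈ IsLocalRing.maximalIdeal O ^ k) :
    x = 0 := by
  have h0 : x ∈ (⊥ : Ideal O) := by
    rw [← Ideal.iInf_pow_eq_bot_of_isLocalRing (IsLocalRing.maximalIdeal O)
      (IsLocalRing.maximalIdeal.isMaximal O).ne_top]
    exact Submodule.mem_iInf _ |>.mpr h
  exact Ideal.mem_bot.mp h0

variable (D : FLTA.GaloisReps.TateData (N * p) p) (ρ : GaloisRepAdic O)
  (W : Submodule O (Fin D.r → O)) (hW0 : W ≠ ⊥)
  (hstab : ∀ g, ∀ w ∈ W, matrixRep O D.rho g w ∈ W)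
  (hquad : ∀ g, ∀ w ∈ W, matrixRep O D.rho g (matrixRep O D.rho g w) -
    ρ.trace g • matrixRep O D.rho g w + LinearMap.det (ρ.ρ g) • w = 0)
  (hpush : ∀ w ∈ W, ∀ ℓ : O →ₗ[ℤ_[p]] ℤ_[p], Pushed D fun i => ℓ (w i))
  (hirr : ρ.residual.IsAbsolutelyIrreducible)
  (hpN : ¬ p ∣ N) (hp2 : p ≠ 2) (hpO : (p : O) ∈ IsLocalRing.maximalIdeal O)
  (hc : ρ.DetIsCyclotomic p)

include hW0 hstab hquad hpush hirr hpN hp2 hpO hc

/-- **The eigenvalue of Frobenius on the unramified quotient squares to `1`.** -/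
theorem sq_coord_frobenius {A : ValuationSubring Qb} (hA : A.LiesOverPrime p) {σ : Γ}
    (hσ : A.IsFrobeniusAt σ p) (b : Module.Basis (Fin 2) O ρ.V)
    (hD : ∀ g ∈ A.decompositionSubgroup ℚ, ∀ v ∈ O ∙ b 0, ρ.ρ g v ∈ O ∙ b 0)
    (hI : ∀ g ∈ A.inertiaSubgroupIn ℚ, ∀ v : ρ.V, ρ.ρ g v - v ∈ O ∙ b 0) :
    b.repr (ρ.ρ σ (b 1)) 1 ^ 2 = 1 := by
  obtain ⟨τ, hτ, hτa⟩ := FLTA.Galois.exists_inertia_cycloExp p hA (-1)
  set a := cycloExp p τ with ha
  have hσD : σ ∈ A.decompositionSubgroup ℚ := (FLTA.Galois.isFrobeniusAt_iff.mp hσ).1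
  have hτD := FLTA.Galois.inertiaSubgroupIn_le_decompositionSubgroup hτ
  set z := b.repr (ρ.ρ σ (b 1)) 1 with hz
  set x := b.repr (ρ.ρ σ (b 0)) 0 with hx
  have line : ∀ v ∈ O ∙ b 0, b.repr v 1 = 0 := fun v hv => by
    obtain ⟨c, rfl⟩ := Submodule.mem_span_singleton.mp hv
    simp
  let Mg : Γ → Matrix (Fin 2) (Fin 2) O := fun g => LinearMap.toMatrixAlgEquiv b (ρ.ρ g)
  have hMdet : ∀ g, LinearMap.det (ρ.ρ g) = (Mg g).det := fun g =>
    (LinearMap.det_toMatrix b (ρ.ρ g)).symm
  have hMtr : ∀ g, ρ.trace g = (Mg g).trace := fun g =>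
    LinearMap.trace_eq_matrix_trace O b (ρ.ρ g)
  have h10 : ∀ g ∈ A.decompositionSubgroup ℚ, Mg g 1 0 = 0 := fun g hg => by
    simpa [Mg, LinearMap.toMatrixAlgEquiv_apply] using
      line _ (hD g hg _ (Submodule.mem_span_singleton_self _))
  have h11 : Mg τ 1 1 = 1 := by
    have h := line _ (hI τ hτ (b 1))
    simp [sub_eq_zero] at h
    simpa [Mg, LinearMap.toMatrixAlgEquiv_apply] using h
  set d := LinearMap.det (ρ.ρ τ) with hd
  have hd00 : d = Mg τ 0 0 := by
    rw [hd, hMdet, Matrix.det_fin_two, h10 τ hτD, h11, mul_one, mul_zero, sub_zero]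
  have hσx : Mg σ 0 0 = x := LinearMap.toMatrixAlgEquiv_apply b _ 0 0
  have hσz : Mg σ 1 1 = z := LinearMap.toMatrixAlgEquiv_apply b _ 1 1
  have htτ : ρ.trace τ = 1 + d := by
    rw [hMtr, Matrix.trace_fin_two, h11, ← hd00, add_comm]
  have htσ : ρ.trace σ = x + z := by rw [hMtr, Matrix.trace_fin_two, hσx, hσz]
  have hdσ : LinearMap.det (ρ.ρ σ) = x * z := by
    rw [hMdet, Matrix.det_fin_two, h10 σ hσD, hσx, hσz, mul_zero, sub_zero]
  have htτσ : ρ.trace (τ * σ) = d * x + z := by
    rw [hMtr, show Mg (τ * σ) = Mg τ * Mg σ by simp only [Mg, map_mul], Matrix.trace_fin_two,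
      Matrix.mul_apply, Matrix.mul_apply, Fin.sum_univ_two, Fin.sum_univ_two, h10 σ hσD,
      h10 τ hτD, h11, ← hd00, hσx, hσz, mul_zero, zero_mul, add_zero, zero_add, one_mul]
  -- units
  have ha2 : ((1 : ℤ) - a : ZMod p) ≠ 0 := by
    rw [Int.cast_one, hτa, Units.val_neg, Units.val_one, sub_neg_eq_add, one_add_one_eq_two]
    intro h
    exact hp2 ((Nat.prime_dvd_prime_iff_eq hp.out Nat.prime_two).mp
      ((ZMod.natCast_eq_zero_iff 2 p).mp (by exact_mod_cast h)))
  have hunit : IsUnit (1 - (a : O)) := by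
    by_contra hu
    obtain ⟨u, v, huv⟩ := Int.isCoprime_iff_gcd_eq_one.mpr (show Int.gcd ((1 : ℤ) - a) p = 1 from
      Nat.coprime_comm.mp ((Nat.Prime.coprime_iff_not_dvd hp.out).mpr fun hdvd => ha2 (by
        have h3 := (ZMod.intCast_zmod_eq_zero_iff_dvd ((1 : ℤ) - a) p).mpr
          (Int.natCast_dvd.mpr hdvd)
        push_cast at h3 ⊢
        exact h3)))
    have h4 := congrArg (Int.cast : ℤ → O) huv
    push_cast at h4
    refine (IsLocalRing.maximalIdeal.isMaximal O).ne_top ((Ideal.eq_top_iff_one _).mpr ?_)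
    rw [← h4]
    exact add_mem (Ideal.mul_mem_left _ _ ((IsLocalRing.mem_maximalIdeal _).mpr hu))
      (Ideal.mul_mem_left _ _ hpO)
  have hdu : IsUnit (d - 1) := by
    have hm : d - (a : O) ∈ IsLocalRing.maximalIdeal O := by
      refine (Ideal.span_singleton_le_iff_mem _).mpr (by rw [pow_one]; exact hpO) (hc.2 1 τ a ?_)
      intro μ hμ
      exact FLTA.Mazur.cycloExp_apply τ (by rwa [pow_one] at hμ)
    by_contra hu
    have h1 := sub_mem hm ((IsLocalRing.mem_maximalIdeal _).mpr hu)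
    rw [show d - (a : O) - (d - 1) = 1 - (a : O) by ring] at h1
    exact (IsLocalRing.mem_maximalIdeal _).mp h1 hunit
  -- a vector of the `1`-part
  set act := matrixRep O D.rho
  obtain ⟨w₀, hw₀, hw₀0⟩ := Submodule.exists_mem_ne_zero_of_ne_bot hW0
  obtain ⟨w, hw, hwne⟩ := exists_act_ne_det_smul ρ.ρ act W hstab hquad b
    ((FLTA.RepTheory.spans_iff_residual_isAbsolutelyIrreducible ρ).mpr hirr) hw₀ hw₀0
    (τ := τ) htτ hdu
  set v₁ := act τ w - d • w with hv₁
  have hv₁W : v₁ ∈ W := sub_mem (hstab τ w hw) (W.smul_mem d hw)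
  have hv₁0 : v₁ ≠ 0 := fun h => hwne (sub_eq_zero.mp h)
  let P : Module.End O (Fin D.r → O) := act τ - d • 1
  let L : Module.End O (Fin D.r → O) := act τ - (a : O) • 1
  have hP : ∀ y, P y = act τ y - d • y := fun y => rfl
  have hfix : ∀ y ∈ W, act τ (P y) = P y := by
    intro y hy
    have h := hquad τ y hy
    rw [htτ] at h
    rw [hP, map_sub, map_smul, ← hd] at *
    linear_combination (norm := module) h
  have hPv : P v₁ = (1 - d) • v₁ := by
    have h := hfix w hw
    rw [hP] at h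
    rw [hP, h, sub_smul, one_smul]
  -- the pushed relation
  set y := act σ (act σ v₁) - v₁ with hy
  have hyW : y ∈ W := sub_mem (hstab _ _ (hstab _ _ hv₁W)) hv₁W
  have hmk : ∀ (k : ℕ) (i : Fin D.r), P y i ∈ IsLocalRing.maximalIdeal O ^ k := by
    intro k i
    have hLP : ∀ j : ℕ, (L ^ j) (P y) = (1 - (a : O)) ^ j • P y := by
      intro j
      induction j with
      | zero => rw [pow_zero, pow_zero, one_smul, Module.End.one_apply]
      | succ j ih =>
        rw [pow_succ', Module.End.mul_apply, ih, map_smul, pow_succ', mul_comm (1 - (a : O)), mul_smul]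
        congr 1
        show act τ (P y) - (a : O) • P y = _
        rw [hfix y hyW, sub_smul, one_smul]
    have hcom : Commute L P :=
      ((Commute.refl (act τ)).sub_left ((Commute.one_left _).smul_left _)).sub_right
        ((Commute.one_right _).smul_right _)
    have hLy : ∀ (j : ℕ) (u : Fin D.r → O), (L ^ j) u =
        ((D.rho τ - (a : Matrix (Fin D.r) (Fin D.r) ℤ_[p])) ^ j).map (algebraMap ℤ_[p] O) *ᵥ
          u := by
      intro j
      induction j with
      | zero =>
        intro u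
        rw [pow_zero, pow_zero, Matrix.map_one _ (map_zero _) (map_one _), Matrix.one_mulVec,
          Module.End.one_apply]
      | succ j ih =>
        intro u
        rw [pow_succ', Module.End.mul_apply, pow_succ', Matrix.map_mul, ← Matrix.mulVec_mulVec,
          ← ih, Matrix.map_sub _ (map_sub _), Matrix.map_natCast (map_zero _), map_natCast,
          Matrix.sub_mulVec, Matrix.diagonal_const_mulVec]
        rfl
    have hX : (L ^ k) y = ((D.rho τ - (a : Matrix (Fin D.r) (Fin D.r) ℤ_[p])) ^ k *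
        (D.rho σ * D.rho σ - 1)).map (algebraMap ℤ_[p] O) *ᵥ v₁ := by
      rw [hy, hLy, Matrix.map_mul, ← Matrix.mulVec_mulVec,
        Matrix.map_sub _ (map_sub _), Matrix.map_mul, Matrix.map_one _ (map_zero _) (map_one _),
        Matrix.sub_mulVec, Matrix.one_mulVec, ← Matrix.mulVec_mulVec]
      rfl
    obtain ⟨u, hu⟩ := exists_eq_pow_smul (k := k) (X := (L ^ k) y) fun ℓ i => by
      have h := dvd_mulVec_of_pushed hpN hA hp2 D hσ hτ (hpush v₁ hv₁W ℓ) k i
      convert h using 1
      rw [hX]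
      simp only [Matrix.mulVec, dotProduct, Matrix.map_apply, map_sum]
      refine Finset.sum_congr rfl fun j _ => ?_
      rw [← Algebra.smul_def, map_smul, smul_eq_mul]
    have h1 : (L ^ k) (P y) = (p : O) ^ k • P u := by
      rw [← Module.End.mul_apply, (hcom.pow_left k).eq, Module.End.mul_apply, hu, map_smul]
    rw [hLP] at h1
    have h2 : (1 - (a : O)) ^ k * P y i ∈ IsLocalRing.maximalIdeal O ^ k := by
      rw [show (1 - (a : O)) ^ k * P y i = ((1 - (a : O)) ^ k • P y) i from rfl, h1]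
      exact Ideal.mul_mem_right _ _ (Ideal.pow_mem_pow hpO k)
    exact (Ideal.unit_mul_mem_iff_mem _ (hunit.pow k)).mp h2
  have hPy : P y = 0 := funext fun i => eq_zero_of_forall_mem_pow fun k => hmk k i
  -- read off
  have hPσ : P (act σ v₁) = (z * (1 - d)) • v₁ := by
    have h := act_polar ρ.ρ act W hstab hquad τ σ hv₁W
    have h1 : act τ v₁ = v₁ := hfix w hw
    rw [h1, show LinearMap.trace O ρ.V (ρ.ρ τ) = 1 + d from htτ,
      show LinearMap.trace O ρ.V (ρ.ρ σ) = x + z from htσ,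
      show LinearMap.trace O ρ.V (ρ.ρ (τ * σ)) = d * x + z from htτσ] at h
    rw [hP]
    linear_combination (norm := module) h
  have hσσ : act σ (act σ v₁) = (x + z) • act σ v₁ - (x * z) • v₁ := by
    have h := hquad σ v₁ hv₁W
    rw [htσ, hdσ] at h
    linear_combination (norm := module) h
  have hkey : ((1 - d) * (z ^ 2 - 1)) • v₁ = 0 := by
    rw [← hPy, hy, map_sub, hσσ, map_sub, map_smul, map_smul, hPσ, hPv]
    module
  have hz0 := (smul_eq_zero.mp hkey).resolve_right hv₁0
  rcases mul_eq_zero.mp hz0 with h | h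
  · exact absurd (by rw [show d - 1 = -(1 - d) by ring, h, neg_zero] : d - 1 = 0) hdu.ne_zero
  · exact sub_eq_zero.mp h

/-- **An ordinary representation of a system killed by both pushforwards is strictly ordinary.** -/
theorem isStrictOrdinaryAt_of_pushed (hord : ρ.IsOrdinaryAt p) :
    ρ.IsStrictOrdinaryAt p := by
  refine ⟨hpO, fun P hP => ?_⟩
  obtain ⟨L, ⟨b, rfl⟩, hD, hI⟩ := hord P hP
  obtain ⟨φ, hφ⟩ := FLTA.Galois.exists_isFrobeniusAt hp.out hP
  have hφD : φ ∈ P.decompositionSubgroup ℚ := (FLTA.Galois.isFrobeniusAt_iff.mp hφ).1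
  have hz := sq_coord_frobenius D ρ W hW0 hstab hquad hpush hirr hpN hp2 hpO hc hP hφ b hD hI
  have line : ∀ v ∈ O ∙ b 0, b.repr v 1 = 0 := fun v hv => by
    obtain ⟨c, rfl⟩ := Submodule.mem_span_singleton.mp hv
    simp
  refine ⟨O ∙ b 0, ⟨b, rfl⟩, hD, hI, fun σ hσ => ?_⟩
  set z := fun g : Γ => b.repr (ρ.ρ g (b 1)) 1 with hzdef
  have hcoord : ∀ g ∈ P.decompositionSubgroup ℚ, ∀ v, b.repr (ρ.ρ g v) 1 = z g * b.repr v 1 :=
    fun g hg v => by
      conv_lhs => rw [← b.sum_repr v]
      rw [Fin.sum_univ_two, map_add, map_smul, map_smul, map_add, map_smul, map_smul,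
        Finsupp.add_apply, Finsupp.smul_apply, Finsupp.smul_apply,
        line _ (hD g hg _ (Submodule.mem_span_singleton_self _)), smul_zero, zero_add,
        smul_eq_mul, mul_comm]
  have hsq : z σ ^ 2 = 1 := by
    have hn : ∀ n : ℕ, z σ ^ 2 - 1 ∈ IsLocalRing.maximalIdeal O ^ n := by
      intro n
      obtain ⟨F, hF, hFn⟩ := ρ.isAdicContinuous n
      obtain ⟨i, ι, hι, he⟩ := FLTA.Galois.exists_pow_mul_inertia_eq hp.out hP hφ hσ F
      have hιD := FLTA.Galois.inertiaSubgroupIn_le_decompositionSubgroup hι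
      have hzι : z ι = 1 := by
        have h := line _ (hI ι hι (b 1))
        rw [map_sub, Finsupp.sub_apply, sub_eq_zero, Module.Basis.repr_self,
          Finsupp.single_eq_same] at h
        exact h
      have hpow : ∀ (i : ℕ), z (φ ^ i * ι) = z φ ^ i := by
        intro i
        induction i with
        | zero => rw [pow_zero, pow_zero, one_mul, hzι]
        | succ i ih =>
          rw [pow_succ' φ, pow_succ', mul_assoc, ← ih]
          show b.repr (ρ.ρ (φ * (φ ^ i * ι)) (b 1)) 1 = _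
          rw [map_mul, Module.End.mul_apply, hcoord φ hφD]
      have hg := hFn ((φ ^ i * ι)⁻¹ * σ) (fun x hx => by
        rw [AlgEquiv.mul_apply, he x hx, ← AlgEquiv.mul_apply, inv_mul_cancel, AlgEquiv.one_apply])
        (b 1)
      have hm : z σ - z φ ^ i ∈ IsLocalRing.maximalIdeal O ^ n := by
        have h1 : b.repr (ρ.ρ ((φ ^ i * ι)⁻¹ * σ) (b 1) - b 1) 1 ∈
            IsLocalRing.maximalIdeal O ^ n := by
          refine Submodule.smul_induction_on hg (fun r hr v _ => ?_) fun x y hx hy => ?_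
          · rw [map_smul, Finsupp.smul_apply, smul_eq_mul]
            exact Ideal.mul_mem_right _ _ hr
          · rw [map_add, Finsupp.add_apply]
            exact add_mem hx hy
        have hgD : (φ ^ i * ι)⁻¹ * σ ∈ P.decompositionSubgroup ℚ :=
          mul_mem (inv_mem (mul_mem (pow_mem hφD i) hιD)) hσ
        have e : z σ = z φ ^ i * b.repr (ρ.ρ ((φ ^ i * ι)⁻¹ * σ) (b 1)) 1 := by
          rw [← hpow, ← hcoord _ (mul_mem (pow_mem hφD i) hιD), ← Module.End.mul_apply, ← map_mul,
            mul_inv_cancel_left]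
        rw [map_sub, Finsupp.sub_apply, Module.Basis.repr_self, Finsupp.single_eq_same] at h1
        rw [e, ← mul_sub_one]
        exact Ideal.mul_mem_left _ _ h1
      have e2 : z σ ^ 2 - 1 = (z σ + z φ ^ i) * (z σ - z φ ^ i) := by
        rw [← sq_sub_sq, ← pow_mul, mul_comm i 2, pow_mul]
        rw [show z φ ^ 2 = 1 from hz, one_pow]
      rw [e2]
      exact Ideal.mul_mem_left _ _ hm
    have h0 : z σ ^ 2 - 1 ∈ (⊥ : Ideal O) := by
      rw [← Ideal.iInf_pow_eq_bot_of_isLocalRing (IsLocalRing.maximalIdeal O)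
        (IsLocalRing.maximalIdeal.isMaximal O).ne_top]
      exact Submodule.mem_iInf _ |>.mpr hn
    exact sub_eq_zero.mp (Ideal.mem_bot.mp h0)
  obtain ⟨x, hx⟩ := Submodule.mem_span_singleton.mp
    (hD σ hσ _ (Submodule.mem_span_singleton_self (b 0)))
  refine ⟨x, z σ, fun w hw => ?_, fun v => ?_, fun n k hnk => ?_⟩
  · obtain ⟨c, rfl⟩ := Submodule.mem_span_singleton.mp hw
    rw [map_smul, ← hx, smul_comm]
  · refine Submodule.mem_span_singleton.mpr ⟨b.repr (ρ.ρ σ v - z σ • v) 0, ?_⟩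
    conv_rhs => rw [← b.sum_repr (ρ.ρ σ v - z σ • v), Fin.sum_univ_two]
    have h1 : b.repr (ρ.ρ σ v - z σ • v) 1 = 0 := by
      rw [map_sub, map_smul, Finsupp.sub_apply, Finsupp.smul_apply, smul_eq_mul, hcoord σ hσ,
        sub_self]
    rw [h1, zero_smul, add_zero]
  · have hdet : LinearMap.det (ρ.ρ σ) = x * z σ := by
      rw [← LinearMap.det_toMatrix b, Matrix.det_fin_two]
      simp only [LinearMap.toMatrix_apply, ← hx, map_smul, Module.Basis.repr_self,
        Finsupp.smul_apply, Finsupp.single_eq_same, smul_eq_mul, mul_one,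
        Finsupp.single_eq_of_ne (show (1 : Fin 2) ≠ 0 by decide), mul_zero, sub_zero]
      rfl
    have h := Ideal.mul_mem_left _ (z σ) (hc.2 n σ k hnk)
    rw [hdet] at h
    convert h using 1
    linear_combination -x * hsq

end Eigen

end FLTA.RT.AtP

end
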