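import Fermat.Agent.RT.DatumResidual
import Fermat.Agent.LevelLowering.LocalCurve
import Fermat.Agent.LevelLowering.GlobalPlane
import Fermat.Agent.BadRed.Ordinary.Plane
import Fermat.Agent.Galois.Cyclotomic
import Fermat.Prelude.Def_GaloisRep_LocalConditions

/-!
# `E[p]` is ordinary at a multiplicative `p`

The line moved by inertia is stable under the decomposition group, because inertia is normal there
and acts on the line by a nontrivial character.  Ordinarity passes to extensions of the coefficient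
field and to isomorphic representations, hence to every representation whose Frobenius polynomials
are congruent to those of the curve.
-/

set_option autoImplicit false
set_option linter.style.haveILetI false

noncomputable section

open IsLocalRing Polynomial
open scoped TensorProduct

namespace FLTA.RT.AtP

open FLTA.LevelLowering (planeRep)

local notation "Γ" => AlgebraicClosure ℚ ≃ₐ[ℚ] AlgebraicClosure ℚ

/-- Ordinarity of a residual representation passes to isomorphic ones. -/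
theorem isOrdinaryAt_ofResidual_of_isEquiv {k : Type} [Field k] {ρ ρ' : ResidualGaloisRep k}
    (e : ρ.IsEquiv ρ') {p : ℕ} (h : (GaloisRepAdic.ofResidualGaloisRep ρ).IsOrdinaryAt p) :
    (GaloisRepAdic.ofResidualGaloisRep ρ').IsOrdinaryAt p := by
  obtain ⟨e⟩ := e
  intro P hP
  obtain ⟨L, ⟨b, rfl⟩, hD, hI⟩ := h P hP
  let b₁ : Module.Basis (Fin 2) k ρ.V := b
  let b' : Module.Basis (Fin 2) k ρ'.V := b₁.map e.toLinearEquiv
  have hb : ∀ v : ρ.V, v ∈ Submodule.span k {b₁ 0} →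
      e.toLinearEquiv v ∈ Submodule.span k {b' 0} := fun v hv => by
    obtain ⟨c, rfl⟩ := Submodule.mem_span_singleton.mp hv
    exact Submodule.mem_span_singleton.mpr ⟨c, (map_smul e.toLinearEquiv c _).symm⟩
  have hmap : ∀ (σ : Γ) (v : ρ.V), e.toLinearEquiv (ρ.ρ σ v) = ρ'.ρ σ (e.toLinearEquiv v) :=
    fun σ v => e.map_apply σ v
  refine ⟨Submodule.span k {b' 0}, ⟨b', rfl⟩, fun σ hσ v hv => ?_, fun σ hσ v => ?_⟩
  · change ρ'.V at v
    obtain ⟨c, rfl⟩ := Submodule.mem_span_singleton.mp hv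
    show ρ'.ρ σ (c • b' 0) ∈ _
    rw [map_smul, Module.Basis.map_apply, ← hmap]
    exact Submodule.smul_mem _ c (hb _ (hD σ hσ _ (Submodule.mem_span_singleton_self _)))
  · change ρ'.V at v
    obtain ⟨w, rfl⟩ := e.toLinearEquiv.surjective v
    show ρ'.ρ σ (e.toLinearEquiv w) - e.toLinearEquiv w ∈ _
    rw [← hmap, ← map_sub]
    exact hb _ (hI σ hσ w)

/-- Ordinarity of a residual representation passes to extensions of the field. -/
theorem isOrdinaryAt_ofResidual_baseChangeAlong {k k' : Type} [Field k] [Field k']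
    (ρ : ResidualGaloisRep k) (ι : k →+* k') {p : ℕ}
    (h : (GaloisRepAdic.ofResidualGaloisRep ρ).IsOrdinaryAt p) :
    (GaloisRepAdic.ofResidualGaloisRep (ρ.baseChangeAlong ι)).IsOrdinaryAt p := by
  intro P hP
  obtain ⟨L, ⟨b, rfl⟩, hD, hI⟩ := h P hP
  letI : Algebra k k' := ι.toAlgebra
  let b₁ : Module.Basis (Fin 2) k ρ.V := b
  let b' : Module.Basis (Fin 2) k' (k' ⊗[k] ρ.V) := Algebra.TensorProduct.basis k' b₁
  have h0 : b' 0 = (1 : k') ⊗ₜ[k] b₁ 0 := Algebra.TensorProduct.basis_apply _ _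
  have hmem : ∀ (x : k') (v : ρ.V), v ∈ Submodule.span k {b₁ 0} →
      x ⊗ₜ[k] v ∈ Submodule.span k' {b' 0} := fun x v hv => by
    obtain ⟨c, rfl⟩ := Submodule.mem_span_singleton.mp hv
    refine Submodule.mem_span_singleton.mpr ⟨c • x, ?_⟩
    rw [h0, TensorProduct.smul_tmul', smul_eq_mul, mul_one, TensorProduct.tmul_smul]
    rfl
  refine ⟨Submodule.span k' {b' 0}, ⟨b', rfl⟩, fun σ hσ v hv => ?_, fun σ hσ v => ?_⟩
  · change k' ⊗[k] ρ.V at v
    obtain ⟨c, rfl⟩ := Submodule.mem_span_singleton.mp hv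
    show (ρ.ρ σ).baseChange k' (c • b' 0) ∈ Submodule.span k' {b' 0}
    rw [map_smul]
    refine Submodule.smul_mem _ c ?_
    have e : (ρ.ρ σ).baseChange k' (b' 0) = (1 : k') ⊗ₜ[k] ρ.ρ σ (b₁ 0) := by
      rw [h0, LinearMap.baseChange_tmul]
    rw [e]
    exact hmem 1 _ (hD σ hσ _ (Submodule.mem_span_singleton_self _))
  · change k' ⊗[k] ρ.V at v
    show (ρ.ρ σ).baseChange k' v - v ∈ Submodule.span k' {b' 0}
    induction v using TensorProduct.induction_on with
    | zero => simp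
    | tmul x u =>
      rw [LinearMap.baseChange_tmul, ← TensorProduct.tmul_sub]
      exact hmem x _ (hI σ hσ u)
    | add x y hx hy => rw [map_add, add_sub_add_comm]; exact add_mem hx hy

/-- `E[p]` is ordinary at a multiplicative `p ≠ 2`. -/
theorem isOrdinaryAt_planeRep {W : WeierstrassCurve ℤ} (hΔ : W.Δ ≠ 0) {p : ℕ} [Fact p.Prime]
    (hp2 : p ≠ 2) (hΔp : (p : ℤ) ∣ W.Δ) (hc₄ : ¬ (p : ℤ) ∣ W.c₄) :
    (GaloisRepAdic.ofResidualGaloisRep (planeRep hΔ (p := p))).IsOrdinaryAt p := by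
  intro P hP
  obtain ⟨L₀, hbot₀, htop₀, hmove, hcyc⟩ :=
    LevelLowering.exists_inertiaLine_curve W hΔ p hp2 (Or.inr ⟨hΔp, hc₄⟩) P hP
  let V := (planeRep hΔ (p := p)).V
  let L : Submodule (ZMod p) V := L₀
  have hbot : L ≠ ⊥ := hbot₀
  have htop : L ≠ ⊤ := htop₀
  have hmove' : ∀ σ ∈ P.inertiaSubgroupIn ℚ, ∀ v : V, (planeRep hΔ).ρ σ v - v ∈ L := hmove
  have hcyc' : ∀ σ ∈ P.inertiaSubgroupIn ℚ, ∀ v ∈ L,
      (planeRep hΔ).ρ σ v = ExtCitation.cycloExp p σ • v := hcyc
  -- a basis through the line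
  have hrank : Module.finrank (ZMod p) L = 1 := by
    have h0 : Module.finrank (ZMod p) L ≠ 0 := by rwa [Ne, Submodule.finrank_eq_zero]
    have h2 : Module.finrank (ZMod p) L < 2 := by
      rw [← (planeRep hΔ (p := p)).finrank_eq]
      exact Submodule.finrank_lt htop
    omega
  obtain ⟨v₀, hv₀, hv₀0⟩ := Submodule.exists_mem_ne_zero_of_ne_bot hbot
  have hspan : ∀ v ∈ L, ∃ c : ZMod p, c • v₀ = v := fun v hv => by
    obtain ⟨c, hc⟩ := (finrank_eq_one_iff_of_nonzero' (⟨v₀, hv₀⟩ : L)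
      (fun h => hv₀0 (congrArg Subtype.val h))).mp hrank ⟨v, hv⟩
    exact ⟨c, congrArg Subtype.val hc⟩
  obtain ⟨w, -, hw⟩ := SetLike.exists_of_lt htop.lt_top
  have hli : LinearIndependent (ZMod p) ![v₀, w] := by
    refine (LinearIndependent.pair_iff' hv₀0).mpr fun c hc => hw ?_
    rw [← hc]
    exact L.smul_mem c hv₀
  let b₀ : Module.Basis (Fin 2) (ZMod p) V :=
    basisOfLinearIndependentOfCardEqFinrank hli (by simp [V, (planeRep hΔ (p := p)).finrank_eq])
  have hb0 : b₀ 0 = v₀ := by simp [b₀]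
  -- stability under the decomposition group
  have hDL : ∀ σ ∈ P.decompositionSubgroup ℚ, ∀ v ∈ L, (planeRep hΔ).ρ σ v ∈ L := by
    intro σ hσ v hv
    obtain ⟨τ, hτ, hτe⟩ := FLTA.Galois.exists_inertia_cycloExp p hP (-1)
    have h2 : (ExtCitation.cycloExp p τ : ZMod p) - 1 ≠ 0 := by
      rw [hτe, Units.val_neg, Units.val_one]
      intro h
      have h' : ((2 : ℕ) : ZMod p) = 0 := by linear_combination (-1 : ZMod p) * h
      exact hp2 ((Nat.prime_dvd_prime_iff_eq Fact.out Nat.prime_two).mp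
        ((ZMod.natCast_eq_zero_iff 2 p).mp h'))
    have h := hmove' _ (BadRed.Ordinary.conj_mem_inertiaSubgroupIn hσ hτ) ((planeRep hΔ).ρ σ v)
    rw [← Module.End.mul_apply, ← map_mul, inv_mul_cancel_right, map_mul, Module.End.mul_apply,
      hcyc' τ hτ v hv, map_nsmul, ← Nat.cast_smul_eq_nsmul (ZMod p)] at h
    rw [show ((ExtCitation.cycloExp p τ : ℕ) : ZMod p) • (planeRep hΔ).ρ σ v -
      (planeRep hΔ).ρ σ v = ((ExtCitation.cycloExp p τ : ZMod p) - 1) • (planeRep hΔ).ρ σ v by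
        rw [sub_smul, one_smul]] at h
    exact (L.smul_mem_iff h2).mp h
  have hL : L = Submodule.span (ZMod p) {b₀ 0} := by
    refine le_antisymm (fun v hv => ?_) ((Submodule.span_singleton_le_iff_mem _ _).mpr
      (by rw [hb0]; exact hv₀))
    obtain ⟨c, rfl⟩ := hspan v hv
    exact Submodule.mem_span_singleton.mpr ⟨c, by rw [hb0]⟩
  exact ⟨L, ⟨b₀, hL⟩, hDL, fun σ hσ v => hmove' σ hσ v⟩

/-- A representation with Frobenius polynomials congruent to those of `W` is residually ordinary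
at a multiplicative `p ≠ 2`. -/
theorem residual_isOrdinaryAt {W : WeierstrassCurve ℤ} (hΔ : W.Δ ≠ 0) {p : ℕ} [Fact p.Prime]
    (hp2 : p ≠ 2) (hirr : W.ModRepIsIrreducible p) (hΔp : (p : ℤ) ∣ W.Δ)
    (hc₄ : ¬ (p : ℤ) ∣ W.c₄) (S : Finset ℕ)
    (hS : ∀ l : ℕ, l.Prime → l ∉ S → l ≠ 2 ∧ l ≠ p ∧ W.IsGoodPrimeFor l)
    {R : Type} [CommRing R] [IsLocalRing R] (ρ : GaloisRepAdic R) (j : ZMod p →+* ResidueField R)
    (a : ℕ → R) (ha : ∀ l : ℕ, l.Prime → l ∉ S → residue R (a l) = (W.apOfModel l : ResidueField R))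
    (hfrob : ∀ l : ℕ, l.Prime → l ∉ S →
      ∀ A : ValuationSubring (AlgebraicClosure ℚ), A.LiesOverPrime l →
        ∀ τ : Γ, A.IsFrobeniusAt τ l →
          (ρ.ρ τ).charpoly = X ^ 2 - C (a l) * X + C (l : R)) :
    (GaloisRepAdic.ofResidualGaloisRep ρ.residual).IsOrdinaryAt p := by
  refine isOrdinaryAt_ofResidual_of_isEquiv
    (Datum.residual_isEquiv_of_frobenius (planeRep hΔ)
      ((FLTA.RepTheory.isAbsolutelyIrreducible_iff_spans _).2
        (LevelLowering.planeRep_spans hΔ hp2 hirr)) S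
      (fun l => (W.apOfModel l : ZMod p)) (fun l hl hlS A hA τ hτ => ?_) ρ j a
      (fun l hl hlS => by rw [ha l hl hlS, map_intCast]) hfrob)
    (isOrdinaryAt_ofResidual_baseChangeAlong _ j (isOrdinaryAt_planeRep hΔ hp2 hΔp hc₄))
  obtain ⟨h2, hlp, hgood⟩ := hS l hl hlS
  obtain ⟨htr, hdet⟩ := LevelLowering.planeRep_frobenius hΔ hp2 hl h2 hgood hlp hA hτ
  rw [FLTA.RepTheory.charpoly_of_finrank_two (planeRep hΔ (p := p)).finrank_eq, htr, hdet]

end FLTA.RT.AtP

end
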