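import Fermat.Agent.RT.AtP.GoodLevel
import Fermat.Agent.RT.AtP.Residual
import Fermat.Agent.BadRed.Ordinary.Endgame
import Fermat.Agent.EllTate.OrdSign

/-!
# `T_p` at a level prime to `p`, when the curve is multiplicative at `p`

If a character of the Hecke algebra of level `M`, `p ∤ M`, is congruent to the traces of a curve
with multiplicative reduction at `p`, its value at `T_p` is congruent to the sign of the reduction.
-/

set_option autoImplicit false
set_option synthInstance.maxHeartbeats 400000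
set_option maxHeartbeats 1000000
set_option linter.style.haveILetI false
set_option linter.unusedSectionVars false

noncomputable section

open AlgebraicCurve ModularCurve
open scoped Matrix TensorProduct
open IsLocalRing Polynomial WeierstrassCurve

namespace FLTA.RT.AtP

open FLTA.BadRed.Ordinary (InertiaTorsion modVec modVec_mulVec modVec_sub actO actO_apply
  functional_actO toricSubgroup mem_toricSubgroup)
open FLTA.GaloisReps (FullHecke)
open FLTA.LevelLowering (planeRep)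

local notation "Qb" => AlgebraicClosure ℚ
local notation "Γ" => AlgebraicClosure ℚ ≃ₐ[ℚ] AlgebraicClosure ℚ

section Transport

variable {V J G Q : Type*} [AddCommGroup V] [AddCommGroup J] [SMul G J] [AddCommGroup Q]

/-- An invariant functional vanishes if it does after an injective equivariant map. -/
theorem eq_zero_of_equivariant (f : V →+ J) (hf : Function.Injective f) (X : AddSubgroup V)
    (S : Set G) (act : G → V → V) (heq : ∀ g v, f (act g v) = g • f v)
    (hstab : ∀ g ∈ S, ∀ v ∈ X, act g v ∈ X) (φ : X →+ Q)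
    (hφ : ∀ (g : G) (hg : g ∈ S) (v : X), φ ⟨act g v, hstab g hg v v.2⟩ = φ v)
    (key : ∀ (hst : ∀ g ∈ S, ∀ y ∈ X.map f, g • y ∈ X.map f) (ψ : X.map f →+ Q),
      (∀ (g : G) (hg : g ∈ S) (y : X.map f), ψ ⟨g • (y : J), hst g hg y y.2⟩ = ψ y) → ψ = 0) :
    φ = 0 := by
  let e : X ≃+ X.map f := X.equivMapOfInjective f hf
  have hst : ∀ g ∈ S, ∀ y ∈ X.map f, g • y ∈ X.map f := by
    rintro g hg _ ⟨v, hv, rfl⟩
    exact ⟨_, hstab g hg v hv, heq g v⟩
  have h0 := key hst (φ.comp e.symm.toAddMonoidHom) fun g hg y => by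
    obtain ⟨v, rfl⟩ := e.surjective y
    have hv : (⟨g • ((e v : X.map f) : J), hst g hg _ (e v).2⟩ : X.map f) =
        e ⟨_, hstab g hg v v.2⟩ := Subtype.ext (heq g v).symm
    show φ (e.symm _) = φ (e.symm (e v))
    rw [hv, e.symm_apply_apply, e.symm_apply_apply]
    exact hφ g hg v
  refine AddMonoidHom.ext fun v => ?_
  have h := DFunLike.congr_fun h0 (e v)
  simpa using h

end Transport

section Torsion

variable (M p : ℕ) [NeZero M] [NeZero p] [hp : Fact p.Prime] (hpM : ¬ p ∣ M)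
  {A : ValuationSubring Qb} (hA : A.LiesOverPrime p)
  [CharP (IsLocalRing.ResidueField A) p] [PerfectRing (IsLocalRing.ResidueField A) p]
  [IsAlgClosed (IsLocalRing.ResidueField A)]
  (D : FLTA.GaloisReps.TateData M p)

/-- The class attached to a vector of level `p ^ k`. -/
def torClass (k : ℕ) : (Fin D.r → ZMod (p ^ k)) →+ JZero M :=
  AddMonoidHom.mk' (fun v => (D.torsionEquiv k v : JZero M))
    fun v w => by rw [map_add]; rfl

theorem nsmul_torClass (k : ℕ) (v : Fin D.r → ZMod (p ^ k)) :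
    (p ^ k) • torClass M p D k v = 0 := by
  have h := (Submodule.mem_torsionBy_iff _ _).mp (D.torsionEquiv k v).2
  rw [← natCast_zsmul, Nat.cast_pow]
  exact h

theorem nsmul_torClass_one (v : Fin D.r → ZMod (p ^ 1)) : p • torClass M p D 1 v = 0 :=
  (congrArg (fun n : ℕ => n • torClass M p D 1 v) (pow_one p).symm).trans
    (nsmul_torClass M p D 1 v)

theorem torClass_galois (k : ℕ) (σ : Γ) (v : Fin D.r → ZMod (p ^ k)) :
    torClass M p D k ((D.rho σ).map (PadicInt.toZModPow k) *ᵥ v) =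
      σ • torClass M p D k v :=
  D.torsionEquiv_galois k σ v

/-- **Inertia torsion at a level prime to `p`**: the classes with toric pullback. -/
theorem exists_inertiaTorsion_good (hp2 : p ≠ 2)
    (hcompat : ∀ (k : ℕ) (v : Fin D.r → ℤ_[p]),
      (p ^ k) • (D.torsionEquiv (k + 1) (modVec (k + 1) v) : JZero M) =
        D.torsionEquiv 1 (modVec 1 v)) :
    ∃ H : InertiaTorsion D.rho (A.inertiaSubgroupIn ℚ),
      ∀ v, torClass M p D 1 v ∈ redKer M p hpM hA → v ∈ H.W 1 := by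
  set B := BadRed.badFibre M p A hA hpM
  obtain ⟨I, hI'⟩ := BadRed.Ordinary.exists_inertiaData M p hpM hA
  have hI : ∀ (γ : A.inertiaSubgroupIn ℚ) (x : JZero (M * p)), (I.sy γ).σ • x = (γ : Γ) • x :=
    fun γ x => by rw [hI', galois_smul_pic0_def]
  let W : ∀ k : ℕ, AddSubgroup (Fin D.r → ZMod (p ^ k)) :=
    fun k => (toricSubgroup B (p ^ k)).comap ((pullAlpha M p).comp (torClass M p D k))
  have h1 : ∀ v, torClass M p D 1 v ∈ redKer M p hpM hA ↔ v ∈ W 1 := by
    intro v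
    show B.IsToric p _ ↔ B.IsToric (p ^ 1) _
    exact iff_of_eq (congrArg (fun n => B.IsToric n _) (pow_one p).symm)
  refine ⟨⟨W, ?_, ?_, ?_⟩, fun v => (h1 v).mp⟩
  · intro k σ hσ v
    have hk : (p ^ k) • pullAlpha M p (torClass M p D k (modVec k v)) = 0 := by
      rw [← map_nsmul, nsmul_torClass, map_zero]
    show B.IsToric (p ^ k) (pullAlpha M p (torClass M p D k _))
    rw [modVec_sub, map_sub, map_sub, modVec_mulVec, torClass_galois, pullAlpha_galois,
      galois_smul_pic0_def, ← hI' ⟨σ, hσ⟩]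
    exact B.isToric_inertia_smul_sub (n := p ^ k)
      (x := pullAlpha M p (torClass M p D k (modVec k v))) (I.sy ⟨σ, hσ⟩) (I.inertia _) hk
  · intro k v hv
    have hscale : modVec (k + 1) (fun i => (p : ℤ_[p]) ^ k * v i) =
        (p ^ k) • modVec (k + 1) v := by
      funext i
      show PadicInt.toZModPow (k + 1) ((p : ℤ_[p]) ^ k * v i) =
        (p ^ k) • PadicInt.toZModPow (k + 1) (v i)
      rw [map_mul, map_pow, map_natCast, nsmul_eq_mul, Nat.cast_pow]
    have hx : torClass M p D (k + 1) (modVec (k + 1) (fun i => (p : ℤ_[p]) ^ k * v i)) =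
        torClass M p D 1 (modVec 1 v) := by
      rw [hscale, map_nsmul]
      exact hcompat k v
    have h1' : p • pullAlpha M p (torClass M p D 1 (modVec 1 v)) = 0 := by
      rw [← map_nsmul]
      rw [nsmul_torClass_one, map_zero]
    have h2 : B.IsToric (p ^ (k + 1)) (pullAlpha M p (torClass M p D 1 (modVec 1 v))) := by
      rw [← hx]; exact hv
    show B.IsToric (p ^ 1) (pullAlpha M p (torClass M p D 1 (modVec 1 v)))
    convert BadRed.Ordinary.isToric_of_pow k h1' h2 using 1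
    exact pow_one p
  · intro X hX hstab φ hφinv
    have hinj : Function.Injective (torClass M p D 1) := fun v w h =>
      (D.torsionEquiv 1).injective (Subtype.ext h)
    have : Finite X := inferInstance
    have : Finite (X.map (torClass M p D 1)) :=
      Finite.of_equiv X (X.equivMapOfInjective (torClass M p D 1) hinj).toEquiv
    refine eq_zero_of_equivariant (torClass M p D 1) hinj X
      (A.inertiaSubgroupIn ℚ : Set Γ)
      (fun σ v => (D.rho σ).map (PadicInt.toZModPow 1) *ᵥ v)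
      (fun σ v => torClass_galois M p D 1 σ v) hstab φ hφinv fun hst ψ hψ => ?_
    refine eq_zero_of_invariant M p hpM hA hp2 (X.map (torClass M p D 1)) ?_ ?_ hst ψ hψ
    · rintro _ ⟨v, hv, rfl⟩; exact (h1 v).mpr (hX hv)
    · rintro _ ⟨v, -, rfl⟩
      exact nsmul_torClass_one M p D v

end Torsion

section Functional

variable {p r : ℕ} [hp : Fact p.Prime] {G : Type*} [Group G]
  {rho : G →* Matrix (Fin r) (Fin r) ℤ_[p]} {I : Subgroup G}
  {O : Type} [CommRing O] [IsDomain O] [IsDiscreteValuationRing O] [Algebra ℤ_[p] O]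
  [Module.Finite ℤ_[p] O] [Module.Free ℤ_[p] O] [CharZero O]

/-- An invariant residual functional on a saturated lattice kills the vectors in `W 1`. -/
theorem functional_eq_zero_of_mem (H : InertiaTorsion rho I) (hpO : (p : O) ∈ maximalIdeal O)
    {Λ : Submodule O (Fin r → O)} (hΛ : ∀ σ ∈ I, ∀ v ∈ Λ, actO rho σ v ∈ Λ)
    (hsat : ∀ v, (p : O) • v ∈ Λ → v ∈ Λ) (lam : Λ →ₗ[O] ResidueField O)
    (hinv : ∀ (σ : G) (hσ : σ ∈ I) (v : Λ), lam ⟨_, hΛ σ hσ v v.2⟩ = lam v)
    {u : Λ} (hu : (u : Fin r → O) ∈ H.WO O 1) : lam u = 0 := by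
  classical
  let bO := Module.Free.chooseBasis ℤ_[p] O
  let Λ₁ : Submodule O Λ := (H.WO O 1).comap Λ.subtype
  have hΛ₁ : ∀ (σ : G) (hσ : σ ∈ I) (v : Λ₁), (⟨_, hΛ σ hσ (v : Λ) (v : Λ).2⟩ : Λ) ∈ Λ₁ :=
    fun σ hσ v => by
      show actO rho σ ((v : Λ) : Fin r → O) ∈ H.WO O 1
      have h := add_mem (H.actO_sub_mem 1 hσ ((v : Λ) : Fin r → O))
        (show ((v : Λ) : Fin r → O) ∈ H.WO O 1 from v.2)
      rwa [sub_add_cancel] at h
  let Φ : Λ₁ →+ (Module.Free.ChooseBasisIndex ℤ_[p] O → Fin r → ZMod (p ^ 1)) :=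
    { toFun := fun v j => modVec 1 fun i => bO.coord j (((v : Λ) : Fin r → O) i)
      map_zero' := by
        funext j i
        simp [modVec]
      map_add' := fun v w => by
        funext j i
        simp [modVec] }
  have hker : ∀ v : Λ₁, Φ v = 0 → lam v = 0 := by
    intro v hv
    have hdvd : ∀ i, ∃ x : O, ((v : Λ) : Fin r → O) i = (p : O) * x := by
      intro i
      have hj : ∀ j, (p : ℤ_[p]) ∣ bO.repr (((v : Λ) : Fin r → O) i) j := by
        intro j
        have h1 := congrFun (congrFun hv j) i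
        simp only [Φ, AddMonoidHom.coe_mk, ZeroHom.coe_mk, modVec, Module.Basis.coord_apply,
          Pi.zero_apply] at h1
        rw [← RingHom.mem_ker, PadicInt.ker_toZModPow, Ideal.mem_span_singleton, pow_one] at h1
        exact h1
      choose c hc using hj
      refine ⟨∑ j, c j • bO j, ?_⟩
      rw [Finset.mul_sum]
      conv_lhs => rw [← bO.sum_repr (((v : Λ) : Fin r → O) i)]
      refine Finset.sum_congr rfl fun j _ => ?_
      rw [hc j, mul_smul, Algebra.smul_def (p : ℤ_[p]), map_natCast]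
    choose x hx using hdvd
    have hxv : ((v : Λ) : Fin r → O) = (p : O) • x := funext fun i => by
      rw [Pi.smul_apply, smul_eq_mul, hx]
    have hxΛ : x ∈ Λ := hsat x (hxv ▸ (v : Λ).2)
    rw [show (v : Λ) = (p : O) • (⟨x, hxΛ⟩ : Λ) from Subtype.ext hxv, map_smul, Algebra.smul_def,
      IsLocalRing.ResidueField.algebraMap_eq, (IsLocalRing.residue_eq_zero_iff _).2 hpO, zero_mul]
  by_contra hne
  haveI : CharP (ResidueField O) p := by
    refine (CharP.charP_iff_prime_eq_zero hp.out).2 ?_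
    rw [← map_natCast (IsLocalRing.residue O), IsLocalRing.residue_eq_zero_iff]
    exact hpO
  letI : Algebra (ZMod p) (ResidueField O) := ZMod.algebra _ p
  obtain ⟨ψ, hψ⟩ : ∃ ψ : Module.Dual (ZMod p) (ResidueField O), ψ (lam u) ≠ 0 :=
    not_forall.1 fun h => hne ((Module.forall_dual_apply_eq_zero_iff (ZMod p) _).1 h)
  have hc : ∀ y : Φ.range, ∃ v : Λ₁, Φ v = (y : _ → Fin r → ZMod (p ^ 1)) := fun y => y.2
  choose lift hlift using hc
  have hwd : ∀ v w : Λ₁, Φ v = Φ w → lam v = lam w := fun v w h => by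
    rw [← sub_eq_zero, ← map_sub]
    exact hker (v - w) ((map_sub Φ v w).trans (by rw [h, sub_self]))
  let φ : Φ.range →+ ZMod p := AddMonoidHom.mk' (fun y => ψ (lam (lift y))) fun y z => by
    rw [← map_add, ← map_add]
    exact congrArg ψ (hwd (lift (y + z)) (lift y + lift z)
      (by rw [map_add, hlift, hlift, hlift]; rfl))
  have hΦ : ∀ (σ : G) (hσ : σ ∈ I) (v : Λ₁),
      Φ ⟨_, hΛ₁ σ hσ v⟩ = fun j => (rho σ).map (PadicInt.toZModPow 1) *ᵥ Φ v j := by
    intro σ hσ v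
    funext j
    show modVec 1 (fun i => bO.coord j (actO rho σ ((v : Λ) : Fin r → O) i)) = _
    rw [functional_actO, modVec_mulVec]
    rfl
  have hY : ∀ σ ∈ I, ∀ y ∈ Φ.range,
      (fun j => (rho σ).map (PadicInt.toZModPow 1) *ᵥ y j) ∈ Φ.range := by
    rintro σ hσ _ ⟨v, rfl⟩
    exact ⟨_, hΦ σ hσ v⟩
  have h0 := H.eq_zero_of_pow Φ.range
    (by rintro _ ⟨v, rfl⟩ j; exact (show _ ∈ H.WO O 1 from v.2) (bO.coord j)) hY φ
    (fun σ hσ y => by
      show ψ (lam (lift _)) = ψ (lam (lift y))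
      rw [hwd (lift _) ⟨_, hΛ₁ σ hσ (lift y)⟩ (by rw [hlift, hΦ σ hσ (lift y), hlift]),
        hinv σ hσ (lift y : Λ)])
    Finset.univ ⟨Φ ⟨u, hu⟩, _, rfl⟩ (fun j hj => absurd (Finset.mem_univ j) hj)
  refine hψ ?_
  rw [← h0]
  exact congrArg ψ (hwd ⟨u, hu⟩ _ (hlift ⟨Φ ⟨u, hu⟩, _, rfl⟩).symm)

end Functional

section Curve

variable {W : WeierstrassCurve ℤ} (hΔ : W.Δ ≠ 0) {p : ℕ} [Fact p.Prime]
include hΔ

/-- An inertia-invariant functional on `E[p]` on which Frobenius acts by the sign. -/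
theorem exists_functional_planeRep (hp2 : p ≠ 2) (hΔp : (p : ℤ) ∣ W.Δ) (hc₄ : ¬ (p : ℤ) ∣ W.c₄)
    {P : ValuationSubring Qb} (hP : P.LiesOverPrime p) {σ : Γ} (hσ : P.IsFrobeniusAt σ p) :
    ∃ φ : (planeRep hΔ (p := p)).V →ₗ[ZMod p] ZMod p, φ ≠ 0 ∧
      (∀ g ∈ P.inertiaSubgroupIn ℚ, ∀ v, φ ((planeRep hΔ).ρ g v) = φ v) ∧
      ∀ v, φ ((planeRep hΔ).ρ σ v) = (EllTate.nodeSign W p : ZMod p) * φ v := by
  let V := (planeRep hΔ (p := p)).V
  let L : Submodule (ZMod p) V := LevelLowering.curveLine W p P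
  have htop : L ≠ ⊤ := (LevelLowering.curveLine_ne hΔ hp2 (Or.inr ⟨hΔp, hc₄⟩) hP).2
  obtain ⟨φ, hφ0, hφ⟩ := Submodule.exists_dual_map_eq_bot_of_lt_top htop.lt_top inferInstance
  have hker : ∀ v ∈ L, φ v = 0 := fun v hv => by
    have h : φ v ∈ Submodule.map φ L := ⟨v, hv, rfl⟩
    rwa [hφ, Submodule.mem_bot] at h
  refine ⟨φ, hφ0, fun g hg v => ?_, fun v => ?_⟩
  · rw [← sub_eq_zero, ← map_sub]
    exact hker _ (LevelLowering.sub_mem_curveLine hΔ (Or.inr ⟨hΔp, hc₄⟩) hP hg v)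
  · obtain ⟨s, -, hs, hF⟩ := EllTate.exists_sign_E1 (Fact.out : p.Prime) hP hΔ hΔp hc₄
      (FLTA.Galois.isFrobeniusAt_iff.mp hσ).1
    have hv : (planeRep hΔ).ρ σ v - (EllTate.nodeSign W p) • v ∈ L := by
      rw [← hF hσ]
      have hp0 : p ^ 1 • (Subtype.val (v : V) : FLTA.EllReduction.GeomPoint W) = 0 := by
        rw [pow_one]
        have h := (Submodule.mem_torsionBy_iff _ _).mp (Subtype.property (v : V))
        rwa [natCast_zsmul] at h
      exact hs 1 _ hp0
    have h := hker _ hv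
    rwa [map_sub, map_zsmul, zsmul_eq_mul, sub_eq_zero] at h

/-- The same functional on a representation with congruent Frobenius polynomials. -/
theorem exists_lam_of_congr (hp2 : p ≠ 2) (hirr : W.ModRepIsIrreducible p)
    (hΔp : (p : ℤ) ∣ W.Δ) (hc₄ : ¬ (p : ℤ) ∣ W.c₄) (S : Finset ℕ)
    (hS : ∀ l : ℕ, l.Prime → l ∉ S → l ≠ 2 ∧ l ≠ p ∧ W.IsGoodPrimeFor l)
    {R : Type} [CommRing R] [IsLocalRing R] (ρ : GaloisRepAdic R) (j : ZMod p →+* ResidueField R)
    (a : ℕ → R) (ha : ∀ l : ℕ, l.Prime → l ∉ S → residue R (a l) = (W.apOfModel l : ResidueField R))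
    (hfrob : ∀ l : ℕ, l.Prime → l ∉ S →
      ∀ A : ValuationSubring Qb, A.LiesOverPrime l →
        ∀ τ : Γ, A.IsFrobeniusAt τ l →
          (ρ.ρ τ).charpoly = X ^ 2 - C (a l) * X + C (l : R))
    {P : ValuationSubring Qb} (hP : P.LiesOverPrime p) {σ : Γ} (hσ : P.IsFrobeniusAt σ p) :
    ∃ lam : ρ.V →ₗ[R] ResidueField R, lam ≠ 0 ∧
      (∀ g ∈ P.inertiaSubgroupIn ℚ, ∀ v, lam (ρ.ρ g v) = lam v) ∧
      ∀ v, lam (ρ.ρ σ v) = (EllTate.nodeSign W p : ResidueField R) * lam v := by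
  obtain ⟨φ, hφ0, hφI, hφσ⟩ := exists_functional_planeRep hΔ hp2 hΔp hc₄ hP hσ
  obtain ⟨e⟩ := Datum.residual_isEquiv_of_frobenius (planeRep hΔ)
    ((FLTA.RepTheory.isAbsolutelyIrreducible_iff_spans _).2
      (LevelLowering.planeRep_spans hΔ hp2 hirr)) S
    (fun l => (W.apOfModel l : ZMod p)) (fun l hl hlS A hA τ hτ => by
      obtain ⟨h2, hlp, hgood⟩ := hS l hl hlS
      obtain ⟨htr, hdet⟩ := LevelLowering.planeRep_frobenius hΔ hp2 hl h2 hgood hlp hA hτ
      rw [FLTA.RepTheory.charpoly_of_finrank_two (planeRep hΔ (p := p)).finrank_eq, htr, hdet])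
    ρ j a (fun l hl hlS => by rw [ha l hl hlS, map_intCast]) hfrob
  letI : Algebra (ZMod p) (ResidueField R) := j.toAlgebra
  let V := (planeRep hΔ (p := p)).V
  let φk : (ResidueField R ⊗[ZMod p] V) →ₗ[ResidueField R] ResidueField R :=
    ((Algebra.linearMap (ZMod p) (ResidueField R)).comp φ).liftBaseChange (ResidueField R)
  have hφk : ∀ (x : ResidueField R) (u : V), φk (x ⊗ₜ u) = x * j (φ u) := fun x u => by
    simp [φk, RingHom.algebraMap_toAlgebra]
  have hkI : ∀ g ∈ P.inertiaSubgroupIn ℚ, ∀ w,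
      φk (((planeRep hΔ).ρ g).baseChange (ResidueField R) w) = φk w := by
    intro g hg w
    induction w using TensorProduct.induction_on with
    | zero => simp only [map_zero]
    | tmul x u => rw [LinearMap.baseChange_tmul, hφk, hφk, hφI g hg]
    | add x y hx hy => rw [map_add, map_add, map_add, hx, hy]
  have hkσ : ∀ w, φk (((planeRep hΔ).ρ σ).baseChange (ResidueField R) w) =
      (EllTate.nodeSign W p : ResidueField R) * φk w := by
    intro w
    induction w using TensorProduct.induction_on with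
    | zero => simp only [map_zero, mul_zero]
    | tmul x u => rw [LinearMap.baseChange_tmul, hφk, hφk, hφσ, map_mul, map_intCast]; ring
    | add x y hx hy => rw [map_add, map_add, map_add, hx, hy, mul_add]
  let inv : (ResidueField R ⊗[R] ρ.V) →ₗ[ResidueField R] (ResidueField R ⊗[ZMod p] V) :=
    e.toLinearEquiv.symm.toLinearMap
  have hinv : ∀ (g : Γ) (y : ResidueField R ⊗[R] ρ.V),
      inv ((ρ.ρ g).baseChange (ResidueField R) y) =
      ((planeRep hΔ).ρ g).baseChange (ResidueField R) (inv y) := fun g y => by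
    refine e.toLinearEquiv.symm_apply_eq.mpr ?_
    refine Eq.symm ((e.map_apply g (e.toLinearEquiv.symm y)).trans ?_)
    erw [LinearEquiv.apply_symm_apply]
    rfl
  let lam : ρ.V →ₗ[R] ResidueField R :=
    ((φk.comp inv).restrictScalars R).comp (TensorProduct.mk R (ResidueField R) ρ.V 1)
  have hlam : ∀ (g : Γ) (v : ρ.V), lam (ρ.ρ g v) =
      φk (((planeRep hΔ).ρ g).baseChange (ResidueField R) (inv (1 ⊗ₜ[R] v))) := fun g v => by
    show φk (inv _) = _
    rw [← hinv]
    rfl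
  refine ⟨lam, fun h0 => hφ0 ?_, fun g hg v => ?_, fun v => ?_⟩
  · refine LinearMap.ext fun u => ?_
    obtain ⟨v, hv⟩ := TensorProduct.mk_surjective R ρ.V (ResidueField R) residue_surjective
      (e.toLinearEquiv ((1 : ResidueField R) ⊗ₜ[ZMod p] u))
    have h1 : φk (inv (TensorProduct.mk R (ResidueField R) ρ.V 1 v)) = 0 :=
      LinearMap.congr_fun h0 v
    erw [hv] at h1
    rw [show inv (e.toLinearEquiv ((1 : ResidueField R) ⊗ₜ[ZMod p] u)) =
      (1 : ResidueField R) ⊗ₜ[ZMod p] u from e.toLinearEquiv.symm_apply_apply _, hφk, one_mul] at h1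
    exact j.injective (h1.trans (map_zero j).symm)
  · rw [hlam, hkI g hg]
    rfl
  · rw [hlam, hkσ]
    rfl

end Curve

/-- **`T_p ≡` sign of the reduction.** -/
theorem heckeT_congr_nodeSign_of_data {W : WeierstrassCurve ℤ} (hΔ : W.Δ ≠ 0) {p : ℕ} [Fact p.Prime]
    (hp2 : p ≠ 2) (hirr : W.ModRepIsIrreducible p) (hΔp : (p : ℤ) ∣ W.Δ)
    (hc₄ : ¬ (p : ℤ) ∣ W.c₄) (M : ℕ) [NeZero M] (hpM : ¬ p ∣ M)
    {O : Type} [CommRing O] [IsDomain O] [IsDiscreteValuationRing O] [CharZero O]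
    [Algebra ℤ_[p] O] [Module.Finite ℤ_[p] O] [Module.Free ℤ_[p] O]
    (hpO : (p : O) ∈ maximalIdeal O) (χ : FullHecke M →+* O) (S : Finset ℕ)
    (hS : ∀ l : ℕ, l.Prime → l ∉ S → ¬ l ∣ M ∧ l ≠ 2 ∧ l ≠ p ∧ W.IsGoodPrimeFor l)
    (hres : ∀ (l : ℕ) (hl : l.Prime) (hlM : ¬ l ∣ M), l ∉ S →
      residue O (χ (CuspForm.heckeAlgebra.T hl hlM (Set.notMem_empty l))) =
        (W.apOfModel l : ResidueField O))
    (D : FLTA.GaloisReps.TateData M p)
    (hcompat : ∀ (k : ℕ) (v : Fin D.r → ℤ_[p]),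
      (p ^ k) • (D.torsionEquiv (k + 1) (modVec (k + 1) v) : JZero M) =
        D.torsionEquiv 1 (modVec 1 v))
    (hhecke : ∀ (k r : ℕ) (hr : r.Prime) (hrN : ¬ r ∣ M) (v : Fin D.r → ZMod (p ^ k)),
      ((D.torsionEquiv k
          ((D.hecke (CuspForm.heckeAlgebra.T hr hrN (Set.notMem_empty r))).map
            (Int.cast : ℤ → ZMod (p ^ k)) *ᵥ v)) : JZero M) =
        heckeOperatorBar M ⟨r, hr⟩ (D.torsionEquiv k v : JZero M)) :
    residue O (χ (CuspForm.heckeAlgebra.T (Fact.out : p.Prime) hpM (Set.notMem_empty p))) =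
      (EllTate.nodeSign W p : ResidueField O) := by
  classical
  have hp : p.Prime := Fact.out
  haveI : NeZero p := ⟨hp.ne_zero⟩
  obtain ⟨A, hA⟩ := FLTA.Galois.exists_liesOverPrime hp
  obtain ⟨σ, hσ⟩ := FLTA.Galois.exists_isFrobeniusAt hp hA
  haveI := FLTA.Galois.charP_residueField hp hA
  haveI := FLTA.Galois.isAlgClosed_residueField A
  haveI : ExpChar (IsLocalRing.ResidueField A) p := ExpChar.prime hp
  haveI : PerfectRing (IsLocalRing.ResidueField A) p := PerfectField.toPerfectRing p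
  haveI : CharP (ResidueField O) p := by
    refine (CharP.charP_iff_prime_eq_zero hp).2 ?_
    rw [← map_natCast (IsLocalRing.residue O), IsLocalRing.residue_eq_zero_iff]
    exact hpO
  obtain ⟨ρ, f, hf, hsat, hequiv, hfeig, hcp⟩ :=
    BadRed.Ordinary.exists_embedded_plane_eigen D hpO χ
  let a : ℕ → O := fun l => if h : l.Prime ∧ ¬ l ∣ M then
    χ (CuspForm.heckeAlgebra.T h.1 h.2 (Set.notMem_empty l)) else 0
  obtain ⟨lam₀, hlam0, hlamI, hlamσ⟩ := exists_lam_of_congr hΔ hp2 hirr hΔp hc₄ S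
    (fun l hl hlS => (hS l hl hlS).2) ρ (ZMod.castHom dvd_rfl (ResidueField O)) a
    (fun l hl hlS => by
      simp only [a, dif_pos (And.intro hl (hS l hl hlS).1)]
      exact hres l hl _ hlS)
    (fun l hl hlS P hP τ hτ => by
      simp only [a, dif_pos (And.intro hl (hS l hl hlS).1)]
      exact hcp l hl _ (hS l hl hlS).2.2.1 P hP τ hτ) hA hσ
  obtain ⟨H, hH⟩ := exists_inertiaTorsion_good M p hpM hA D hp2 hcompat
  let Λ := LinearMap.range f
  let e := LinearEquiv.ofInjective f hf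
  let lam : Λ →ₗ[O] ResidueField O := lam₀.comp e.symm.toLinearMap
  have hΛ : ∀ g ∈ A.inertiaSubgroupIn ℚ, ∀ v ∈ Λ, actO D.rho g v ∈ Λ := by
    rintro g - _ ⟨v, rfl⟩
    exact ⟨ρ.ρ g v, hequiv g v⟩
  have hlame : ∀ v, lam (e v) = lam₀ v := fun v => by simp [lam]
  obtain ⟨v, hv⟩ : ∃ v, lam₀ v ≠ 0 := by
    by_contra h
    push Not at h
    exact hlam0 (LinearMap.ext fun v => by simpa using h v)
  set c := χ (CuspForm.heckeAlgebra.T hp hpM (Set.notMem_empty p)) with hc
  set t := CuspForm.heckeAlgebra.T hp hpM (Set.notMem_empty p) (N := M) (k := 2) with ht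
  let u : ρ.V := c • v - ρ.ρ σ v
  -- the eigen relation on the plane
  have heig : (D.hecke t).map (Int.cast : ℤ → O) *ᵥ f v = c • f v := hfeig t v
  have hu : ((e u : Λ) : Fin D.r → O) ∈ H.WO O 1 := by
    intro ℓ
    refine hH _ ?_
    show torClass M p D 1 (modVec 1 fun i => ℓ (f u i)) ∈ redKer M p hpM hA
    have h2 : (fun i => ℓ (f u i)) = (D.hecke t).map (Int.cast : ℤ → ℤ_[p]) *ᵥ
        (fun i => ℓ (f v i)) - D.rho σ *ᵥ fun i => ℓ (f v i) := by
      rw [← functional_actO]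
      funext i
      simp only [u, map_sub, map_smul, hequiv, ← heig, Pi.sub_apply]
      congr 1
      simp only [Matrix.mulVec, dotProduct, Matrix.map_apply, map_sum]
      refine Finset.sum_congr rfl fun k _ => ?_
      rw [← zsmul_eq_mul, map_zsmul, zsmul_eq_mul]
    rw [h2, modVec_sub, map_sub, modVec_mulVec, modVec_mulVec, torClass_galois]
    have hmap : ((D.hecke t).map (Int.cast : ℤ → ℤ_[p])).map (PadicInt.toZModPow 1) =
        (D.hecke t).map (Int.cast : ℤ → ZMod (p ^ 1)) := by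
      ext i k
      simp
    rw [hmap]
    have hT := hhecke 1 p hp hpM (modVec 1 fun i => ℓ (f v i))
    have hx : p • torClass M p D 1 (modVec 1 fun i => ℓ (f v i)) = 0 := by
      exact nsmul_torClass_one M p D _
    have h3 := heckeOperatorBar_sub_frob_mem_redKer M p hpM hA hσ hx
    rw [show torClass M p D 1 ((D.hecke t).map (Int.cast : ℤ → ZMod (p ^ 1)) *ᵥ
      modVec 1 fun i => ℓ (f v i)) =
        heckeOperatorBar M ⟨p, hp⟩ (torClass M p D 1 (modVec 1 fun i => ℓ (f v i))) from hT]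
    exact h3
  have h0 := functional_eq_zero_of_mem H hpO hΛ hsat lam (fun g hg w => by
    obtain ⟨w, rfl⟩ := e.surjective w
    rw [hlame, ← hlamI g hg w, ← hlame]
    exact congrArg lam (Subtype.ext (hequiv g w).symm)) hu
  rw [hlame, map_sub, map_smul, hlamσ, Algebra.smul_def, IsLocalRing.ResidueField.algebraMap_eq,
    ← sub_mul] at h0
  exact sub_eq_zero.mp ((mul_eq_zero.mp h0).resolve_right hv)

/-- **`T_p ≡` sign of the reduction.** -/
theorem heckeT_congr_nodeSign {W : WeierstrassCurve ℤ} (hΔ : W.Δ ≠ 0) {p : ℕ} [Fact p.Prime]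
    (hp2 : p ≠ 2) (hirr : W.ModRepIsIrreducible p) (hΔp : (p : ℤ) ∣ W.Δ)
    (hc₄ : ¬ (p : ℤ) ∣ W.c₄) (M : ℕ) [NeZero M] (hpM : ¬ p ∣ M)
    {O : Type} [CommRing O] [IsDomain O] [IsDiscreteValuationRing O] [CharZero O]
    [Algebra ℤ_[p] O] [Module.Finite ℤ_[p] O] [Module.Free ℤ_[p] O]
    (hpO : (p : O) ∈ maximalIdeal O) (χ : FullHecke M →+* O) (S : Finset ℕ)
    (hS : ∀ l : ℕ, l.Prime → l ∉ S → ¬ l ∣ M ∧ l ≠ 2 ∧ l ≠ p ∧ W.IsGoodPrimeFor l)
    (hres : ∀ (l : ℕ) (hl : l.Prime) (hlM : ¬ l ∣ M), l ∉ S →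
      residue O (χ (CuspForm.heckeAlgebra.T hl hlM (Set.notMem_empty l))) =
        (W.apOfModel l : ResidueField O)) :
    residue O (χ (CuspForm.heckeAlgebra.T (Fact.out : p.Prime) hpM (Set.notMem_empty p))) =
      (EllTate.nodeSign W p : ResidueField O) := by
  haveI : NeZero p := ⟨(Fact.out : p.Prime).ne_zero⟩
  exact heckeT_congr_nodeSign_of_data hΔ hp2 hirr hΔp hc₄ M hpM hpO χ S hS hres
    (FLTA.GaloisReps.tateData M p) (BadRed.Ordinary.pow_nsmul_torsionEquiv_modVec p M)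
    (fun k _ hr hrN v => FLTA.GaloisReps.tateTorsionEquiv_hecke M p k hr hrN v)

end FLTA.RT.AtP

end
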